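/-
Program TW (S56, Taylor–Wiles primes), chapter LocalDuality (WP2/WP3 glue), helper22.

`ResNat22`: generic naturality of the pairing `(x, y) ↦ ⟨compare1 x, y⟩ ∈ H²_lev(G; X)` under
restriction along a level homomorphism `f : G' →* G` and a coefficient map `ε : X → W` over `f` with
`ε ∘ j_X = j_W`:
    `res_ε ⟨Φ_G x, y⟩ = ⟨Φ_{G'} (res_f x), res_f y⟩`
(`KerIsoMain7.compare1_natural` + `PairingResObj1.pair11_KXPHom`), and the restriction of plain
level classes on representatives (`resPlain_cl1`, by `rfl`).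
-/
import Mathlib
import Fermat.Agent.PT.PRO.PairingResObj1
import Fermat.Agent.PT.PRO.KerIsoMain7

set_option autoImplicit false
set_option linter.unusedSectionVars false

namespace Fermat.Agent.TW.LocalDuality.ResNat22

open Function
open Fermat.Agent.PT.PRO Fermat.Agent.PT.PRO.HyperLevel25 Fermat.Agent.PT.PRO.Resolved4
open Fermat.Agent.PT.PRO.HyperCompare25 Fermat.Agent.PT.PRO.HyperRes25
open Fermat.Agent.PT.PRO.ExtPairing4 Fermat.Agent.PT.PRO.ExtPairingB4
open Fermat.Agent.PT.PRO.KerIso7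
open Fermat.Agent.PT.PRO.IndRes20 Fermat.Agent.PT.PRO.Setup20 Fermat.Agent.PT.PRO.Objects20
open Fermat.Agent.PT.PRO.PairingRes1 Fermat.Agent.PT.PRO.PairingResObj1

/-! ### Generic naturality of `(x, y) ↦ ⟨compare1 x, y⟩` under restriction -/

section Generic

variable {k : Type*} [CommRing k] (hk : IntSurj k)
variable {p : ℕ} [Fact p.Prime] {G G' : Type*} [Group G] [Group G']
variable {𝒰 : Set (Subgroup G)} {𝒰' : Set (Subgroup G')}
variable {M : Type*} [AddCommGroup M] [Module (ZMod p) M] [Module k M]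
  [FiniteDimensional (ZMod p) M] [Module k (Module.Dual (ZMod p) M)]
variable {P0 P1 : Type*} [AddCommGroup P0] [Module k P0] [AddCommGroup P1] [Module k P1]
  [Module.Finite k P0] [Module.Finite k P1]
variable {X W : Type*} [AddCommGroup X] [Module k X] [AddCommGroup W] [Module k W]

variable (R : Res k G P1 P0 (Module.Dual (ZMod p) M)) (h0 : IsDiscrete 𝒰 R.ρ0)
  (h𝒰 : IsLevelBasis 𝒰) (h𝒰' : IsLevelBasis 𝒰')
  (ρM : Representation (ZMod p) G M) (hM : IsDiscrete 𝒰 ρM) (χ : G →* (ZMod p)ˣ)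
  (hA : ∀ g a, R.ρM g a = (χ g : ZMod p) • (a ∘ₗ ρM g⁻¹))
  {ρX : Representation k G X} (hX : IsDiscrete 𝒰 ρX) (D : MuData χ ρX)
  (f : G' →* G) (hf : IsLevelHom f 𝒰' 𝒰)
  {ρW : Representation k G' W} (hW : IsDiscrete 𝒰' ρW) (D' : MuData (χ.comp f) ρW)
  (ε : X →ₗ[k] W) (hε : ∀ g x, ε (ρX (f g) x) = ρW g (ε x)) (hεj : ∀ a, ε (D.j a) = D'.j a)

include hεj in
/-- `res_ε ⟨Φ x, y⟩ = ⟨Φ' (res x), res y⟩`. -/
theorem pair11_compare1_natural
    (x : Hp1 h𝒰 (intRep hk ρM) (isDiscrete_intRep hk hM))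
    (y : Hlev1 h𝒰 (toResolved R h0).ρM (toResolved R h0).discM) :
    resX h𝒰 h𝒰' f hf hX hW ε hε
        (pair11 (evP R h0 h𝒰 ρX hX) h𝒰 hX
          (compare1 hk h𝒰 (toResolved R h0) ρM hM χ hA hX D x) y) =
      pair11 (evP (R.comap f) (comap_disc0 R h0 f hf) h𝒰' ρW hW) h𝒰' hW
        (compare1 hk h𝒰' (toResolved (R.comap f) (comap_disc0 R h0 f hf)) (ρM.comp f)
          (IsLevelHom.isDiscrete hf hM) (χ.comp f) (KerIsoMain7.hA_comap R ρM χ hA f) hW D'
          ((KerIsoMain7.resPlain hk h𝒰 h𝒰' ρM hM f hf).mapH1 x))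
        (resM R h0 h𝒰 h𝒰' f hf y) := by
  rw [KerIsoMain7.compare1_natural hk R h0 h𝒰 h𝒰' ρM hM χ hA hX D f hf hW D' ε hε hεj x,
    pair11_KXPHom]

/-- The restriction of plain level classes on representatives. -/
theorem resPlain_cl1 (c : G → M) (hl : IsLevel₁ 𝒰 c) (hc : dOne (intRep hk ρM) c = 0) :
    (KerIsoMain7.resPlain hk h𝒰 h𝒰' ρM hM f hf).mapH1
        (cl1 h𝒰 (intRep hk ρM) (isDiscrete_intRep hk hM) c hl hc) =
      cl1 h𝒰' (intRep hk (ρM.comp f)) (isDiscrete_intRep hk (IsLevelHom.isDiscrete hf hM))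
        (c ∘ ⇑f) (hf.isLevel₁ hl)
        (by
          have := dOne_precomp (intRep hk ρM) (intRep hk (ρM.comp f)) LinearMap.id
            (fun _ _ => rfl) c
          simp only [LinearMap.id_coe, Function.id_comp] at this
          rw [this, hc]
          rfl) := rfl

end Generic

end Fermat.Agent.TW.LocalDuality.ResNat22
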