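/-
Program TW (S56, Taylor–Wiles primes), chapter LocalDuality (WP2), helper22.

`PairFormula22`: in the vocabulary of Program F (`PT/PRO/KerIso7`, `ExtPairing4`, `ExtPairingB4`):
for a finite-dimensional `𝔽_p[G]`-module `M`, a resolution `P` of `M' = Hom(M, 𝔽_p)(χ)`, a discrete
module `X ⊇ μ_p` (`D : MuData χ ρX`), the composite

  `H¹(G; M) --compare1--> ℍ¹(G; K(P; X))`,   `pair11 : ℍ¹(K(P; X)) × H¹(G; M') → H²(G; X)`

is the CUP PRODUCT: on cocycles `x : G → M`, `y : G → M'` it is the class of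

  `(g, h) ↦ j ((g • y(h)) (x(g)))`      (`j : 𝔽_p → X` the embedding of `μ_p`).

Consequently (`right_kernel_raw`): if `pair11` has trivial right kernel (e.g. the local datum,
`GLUE/LocalHypR11`), `X` is `p`-divisible and `P₁` is projective, then a cocycle `y` of `M'` whose cup
product with EVERY cocycle `x` of `M` is a level coboundary of `X` is itself a coboundary.
Everything is stated on raw cochains, so that no choice of a "cup product" definition is involved.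
-/
import Mathlib
import Fermat.Agent.PT.PRO.KerIso7
import Fermat.Agent.PT.PRO.ExtPairingB4

set_option autoImplicit false
set_option linter.unusedSectionVars false

namespace Fermat.Agent.TW.LocalDuality.PairFormula22

open Function Fermat.Agent.PT.PRO.HyperLevel25 Fermat.Agent.PT.PRO.Resolved4
  Fermat.Agent.PT.PRO.ExtPairing4 Fermat.Agent.PT.PRO.ExtPairingB4
  Fermat.Agent.PT.PRO.KerIso7 Fermat.Agent.PT.PRO.HyperCompare25

section CupJ

variable {k : Type*} [CommRing k] {p : ℕ} [Fact p.Prime] {G : Type*} [Group G]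
variable {X : Type*} [AddCommGroup X] [Module k X]
variable {M : Type*} [AddCommGroup M] [Module (ZMod p) M]
variable [Module k (Module.Dual (ZMod p) M)]
variable {P0 P1 : Type*} [AddCommGroup P0] [Module k P0] [AddCommGroup P1] [Module k P1]
variable {𝒰 : Set (Subgroup G)}

/-- The cup-product cochain `(g, h) ↦ j ((g • y(h)) (x(g)))`. -/
def cupJ (P : Resolved k 𝒰 P1 P0 (Module.Dual (ZMod p) M)) {χ : G →* (ZMod p)ˣ}
    {ρX : Representation k G X} (D : MuData χ ρX)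
    (x : G → M) (y : G → Module.Dual (ZMod p) M) : G × G → X :=
  fun q => D.j ((P.ρM q.1 (y q.2)) (x q.1))

@[simp] lemma cupJ_apply (P : Resolved k 𝒰 P1 P0 (Module.Dual (ZMod p) M)) {χ : G →* (ZMod p)ˣ}
    {ρX : Representation k G X} (D : MuData χ ρX)
    (x : G → M) (y : G → Module.Dual (ZMod p) M) (g h : G) :
    cupJ P D x y (g, h) = D.j ((P.ρM g (y h)) (x g)) := rfl

end CupJ

variable {k : Type*} [CommRing k] (hk : IntSurj k)
variable {p : ℕ} [Fact p.Prime] {G : Type*} [Group G]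
variable {X : Type*} [AddCommGroup X] [Module k X]
variable {M : Type*} [AddCommGroup M] [Module (ZMod p) M] [Module k M]
variable [Module k (Module.Dual (ZMod p) M)]
variable {P0 P1 : Type*} [AddCommGroup P0] [Module k P0] [AddCommGroup P1] [Module k P1]
variable {𝒰 : Set (Subgroup G)} (h𝒰 : IsLevelBasis 𝒰)
variable [FiniteDimensional (ZMod p) M] [Module.Finite k P0] [Module.Finite k P1]
variable (P : Resolved k 𝒰 P1 P0 (Module.Dual (ZMod p) M))
  (ρM : Representation (ZMod p) G M) (hM : IsDiscrete 𝒰 ρM) (χ : G →* (ZMod p)ˣ)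
  (hA : ∀ g a, P.ρM g a = (χ g : ZMod p) • (a ∘ₗ ρM g⁻¹))
  {ρX : Representation k G X} (hX : IsDiscrete 𝒰 ρX) (D : MuData χ ρX)

/-- The hyper-1-cocycle `(κ ∘ x, 0)` of `K(P; X)` attached to a 1-cocycle `x : G → M`. -/
def kapHZ1 (x : G → M) (hxl : IsLevel₁ 𝒰 x) (hxc : dOne (intRep hk ρM) x = 0) :
    HZ1 (P.K h𝒰 ρX hX) where
  c := fun g => kapRes hk D.j P.π (x g)
  e := 0
  lev := hxl.comp _
  hc g h := by
    have h1 := congrFun (comp_dOne (intRep hk ρM) (P.K h𝒰 ρX hX).ρ0 (kapRes hk D.j P.π)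
      (kapRes_equivariant hk ρM χ P.ρM hA ρX D.j D.equiv P.ρ0 P.π P.π_comm) x) (g, h)
    rw [hxc] at h1
    have h2 : (⇑(kapRes hk D.j P.π) ∘ x) = fun g => kapRes hk D.j P.π (x g) := rfl
    rw [h2] at h1
    rw [← h1]
    simp
  he g := by
    have h1 : (P.K h𝒰 ρX hX).f (kapRes hk D.j P.π (x g)) = 0 :=
      lcomp_kapRes hk D.j P.π P.ι P.π_ι (x g)
    rw [h1, dZero_apply, map_zero, sub_zero]

@[simp] lemma kapHZ1_c (x : G → M) (hxl : IsLevel₁ 𝒰 x) (hxc : dOne (intRep hk ρM) x = 0)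
    (g : G) : (kapHZ1 hk h𝒰 P ρM χ hA hX D x hxl hxc).c g = kapRes hk D.j P.π (x g) := rfl

@[simp] lemma kapHZ1_e (x : G → M) (hxl : IsLevel₁ 𝒰 x) (hxc : dOne (intRep hk ρM) x = 0) :
    (kapHZ1 hk h𝒰 P ρM χ hA hX D x hxl hxc).e = 0 := rfl

/-- The class of a raw level 1-cocycle in the plain level cohomology `Hp1`. -/
def clp1 (x : G → M) (hxl : IsLevel₁ 𝒰 x) (hxc : dOne (intRep hk ρM) x = 0) :
    Hp1 h𝒰 (intRep hk ρM) (isDiscrete_intRep hk hM) :=
  (plainCpx h𝒰 (intRep hk ρM) (isDiscrete_intRep hk hM)).π1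
    ⟨⟨x, hxl⟩, (mem_plain_Z1_iff h𝒰 _ _ _).2 hxc⟩

lemma clp1_surjective (w : Hp1 h𝒰 (intRep hk ρM) (isDiscrete_intRep hk hM)) :
    ∃ (x : G → M) (hxl : IsLevel₁ 𝒰 x) (hxc : dOne (intRep hk ρM) x = 0),
      clp1 hk h𝒰 ρM hM x hxl hxc = w := by
  obtain ⟨z, rfl⟩ := (plainCpx h𝒰 (intRep hk ρM) (isDiscrete_intRep hk hM)).π1_surjective w
  exact ⟨z.1.1, z.1.2, (mem_plain_Z1_iff h𝒰 _ _ z.1).1 z.2, rfl⟩

/-- `compare1 [x] = [(κ ∘ x, 0)]`. -/
theorem compare1_clp1 (x : G → M) (hxl : IsLevel₁ 𝒰 x) (hxc : dOne (intRep hk ρM) x = 0) :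
    compare1 hk h𝒰 P ρM hM χ hA hX D (clp1 hk h𝒰 ρM hM x hxl hxc) =
      (kapHZ1 hk h𝒰 P ρM χ hA hX D x hxl hxc).cls h𝒰 := rfl

/-- The `(1,1)` cochain of `(κ ∘ x, 0)` and any lift of `y` is the cup-product cochain. -/
theorem p11_kapHZ1 (x : G → M) (hxl : IsLevel₁ 𝒰 x) (hxc : dOne (intRep hk ρM) x = 0)
    (y : G → Module.Dual (ZMod p) M) (L : Lift1 P) (hL : L.Lifts y) :
    (evalPairing P h𝒰 ρX hX).p11 (kapHZ1 hk h𝒰 P ρM χ hA hX D x hxl hxc).c
      (kapHZ1 hk h𝒰 P ρM χ hA hX D x hxl hxc).e L.xt L.y' = cupJ P D x y := by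
  funext ⟨g, h⟩
  rw [Pairing.p11, kapHZ1_e, map_zero, LinearMap.zero_apply, add_zero, kapHZ1_c, evalPairing_β0,
    kapRes_apply, cupJ_apply, P.π_comm, hL h]

/-- **The pairing of `compare1 [x]` with `[y]` is the class of the cup product**, in the form of a
vanishing criterion. -/
theorem pair11_compare1_eq_zero_iff (x : G → M) (hxl : IsLevel₁ 𝒰 x)
    (hxc : dOne (intRep hk ρM) x = 0)
    (y : G → Module.Dual (ZMod p) M) (hyl : IsLevel₁ 𝒰 y) (hyc : dOne P.ρM y = 0) :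
    pair11 (evalPairing P h𝒰 ρX hX) h𝒰 hX
        (compare1 hk h𝒰 P ρM hM χ hA hX D (clp1 hk h𝒰 ρM hM x hxl hxc))
        (cl1 h𝒰 P.ρM P.discM y hyl hyc) = 0 ↔
      ∃ u : G → X, IsLevel₁ 𝒰 u ∧ dOne ρX u = cupJ P D x y := by
  obtain ⟨L, hL⟩ := Lift1.exists_lift (P := P) hyl hyc
  rw [compare1_clp1, pair11_eq_zero_iff (evalPairing P h𝒰 ρX hX) h𝒰 hX _ y hyl hyc L hL,
    p11_kapHZ1 hk h𝒰 P ρM χ hA hX D x hxl hxc y L hL]

include hM hA in
/-- **Right kernel, raw form.**  Assume the pairing `pair11 : ℍ¹(K(P; X)) × H¹(G; M') → H²(G; X)` has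
trivial right kernel, `X` is `p`-divisible and `P₁` is projective.  If a level 1-cocycle `y` of
`M' = Hom(M, 𝔽_p)(χ)` has the property that for every level 1-cocycle `x` of `M` the cup product
`(g, h) ↦ j ((g • y(h)) (x(g)))` is a level coboundary of `X`, then `y` is a coboundary. -/
theorem right_kernel_raw [Module.Projective k P1] (hdiv : ∀ x : X, ∃ y : X, (p : k) • y = x)
    (HR : ∀ w : Hlev1 h𝒰 P.ρM P.discM,
      (∀ ξ, pair11 (evalPairing P h𝒰 ρX hX) h𝒰 hX ξ w = 0) → w = 0)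
    (y : G → Module.Dual (ZMod p) M) (hyl : IsLevel₁ 𝒰 y) (hyc : dOne P.ρM y = 0)
    (H : ∀ x : G → M, IsLevel₁ 𝒰 x → dOne (intRep hk ρM) x = 0 →
      ∃ u : G → X, IsLevel₁ 𝒰 u ∧ dOne ρX u = cupJ P D x y) :
    ∃ a : Module.Dual (ZMod p) M, dZero P.ρM a = y := by
  have h0 : cl1 h𝒰 P.ρM P.discM y hyl hyc = 0 := by
    apply HR
    intro ξ
    obtain ⟨w, rfl⟩ := (compare1_bijective hk h𝒰 P ρM hM χ hA hX D hdiv).2 ξ
    obtain ⟨x, hxl, hxc, rfl⟩ := clp1_surjective hk h𝒰 ρM hM w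
    exact (pair11_compare1_eq_zero_iff hk h𝒰 P ρM hM χ hA hX D x hxl hxc y hyl hyc).2
      (H x hxl hxc)
  exact (cl1_eq_zero_iff hyl hyc).1 h0

end Fermat.Agent.TW.LocalDuality.PairFormula22
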