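/-
Program TW (S56, Taylor–Wiles primes), chapter LocalDuality (WP2), helper22.

`LocalRightKernel22`: **local Tate duality, right non-degeneracy of the cup product
`H¹(ℚ_q, M) × H¹(ℚ_q, M^*(1)) → H²(ℚ_q, ℚ̄_qˣ)`, on raw cochains** (statement (P2') of the TW plan).

Data: a prime `q` (ANY prime, `q = p` allowed), `Γ_q = Gal(ℚ̄_q/ℚ_q)` with the level basis
`levelLoc q` (all open subgroups), a finite-dimensional `𝔽_p`-vector space `M` with a discrete
action `ρM` of `Γ_q`, and the action `ρA` on `M' = Hom(M, 𝔽_p)` twisted by the mod `p`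
cyclotomic character (`hA`).  Then (`local_right_kernel`):

  if `y : Γ_q → M'` is a level 1-cocycle such that for EVERY level 1-cocycle `x : Γ_q → M` the
  2-cocycle `(g, h) ↦ ζ_p ^ ((g • y(h)) (x(g)))` is the coboundary of a level 1-cochain of `ℚ̄_qˣ`,
  then `y` is a coboundary.

It is deduced from Program F's unconditional local right kernel
(`PT/GLUE/LocalHypR11.pair11_right_kernel_local`: Tate–Nakayama at all finite levels + Hilbert 90)
through `PairFormula22.right_kernel_raw`.
-/
import Mathlib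
import Fermat.Agent.TW.LocalDuality.PairFormula22
import Fermat.Agent.PT.GLUE.LocalHypR11
import Fermat.Agent.PT.PRO.KerIsoGal7
import Fermat.Agent.PT.PRO.HpAt29
import Fermat.Agent.PT.PRO.Setup20
import Fermat.Agent.PT.BR.DualTwist7

set_option autoImplicit false
set_option linter.unusedSectionVars false

namespace Fermat.Agent.TW.LocalDuality.LocalRightKernel22

open Function ExtCitation
open Fermat.Agent.PT.PRO Fermat.Agent.PT.PRO.HyperLevel25 Fermat.Agent.PT.PRO.Resolved4
open Fermat.Agent.PT.PRO.ExtPairing4 Fermat.Agent.PT.PRO.ExtPairingB4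
open Fermat.Agent.PT.PRO.KerIso7 Fermat.Agent.PT.PRO.KerIsoGal7
open Fermat.Agent.PT.PRO.IndRes20 Fermat.Agent.PT.PRO.Setup20
open Fermat.Agent.PT.GLUE.Objects21 Fermat.Agent.PT.GLUE.LocalHypR11
open Fermat.Agent.TW.LocalDuality.PairFormula22

variable (q : ℕ) [Fact q.Prime] (p : ℕ) [Fact p.Prime]

local notation "Γq" => (PadicAlgCl q ≃ₐ[ℚ_[q]] PadicAlgCl q)

/-- The local mod `p` cyclotomic character of `Γ_q`. -/
noncomputable abbrev chiLoc : Γq →* (ZMod p)ˣ := (cycloChar p).comp (localGaloisToGlobal q)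

/-- The local cyclotomic character is trivial on a level of `Γ_q`. -/
theorem exists_level_chiLoc_eq_one :
    ∃ U ∈ (levelLoc q).sets, ∀ s ∈ U, chiLoc q p s = 1 := by
  refine ⟨Subgroup.comap (localGaloisToGlobal q)
    (Fermat.Agent.S14.Fields.Kz p).fixingSubgroup,
    ⟨_, ⟨Fermat.Agent.S14.Fields.Kz p, inferInstance, rfl⟩, rfl⟩, fun s hs => ?_⟩
  exact Fermat.Agent.PT.BR.DualTwist7.cycloChar_eq_one_of_mem_fixingSubgroup_Kz p hs

variable {M : Type} [AddCommGroup M] [Module (ZMod p) M] [FiniteDimensional (ZMod p) M]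
  (ρM : Representation (ZMod p) (PadicAlgCl q ≃ₐ[ℚ_[q]] PadicAlgCl q) M)
  (hM : HyperLevel25.IsDiscrete (levelLoc q).sets ρM)
  (ρA : Representation (ZMod p) (PadicAlgCl q ≃ₐ[ℚ_[q]] PadicAlgCl q) (Module.Dual (ZMod p) M))
  (hA : ∀ g a, ρA g a = (chiLoc q p g : ZMod p) • (a ∘ₗ ρM g⁻¹))

include hM hA in
/-- The twisted dual of a discrete finite module is discrete. -/
theorem isDiscrete_dual : HyperLevel25.IsDiscrete (levelLoc q).sets ρA := by
  have h𝒰 := isLevelBasis_levelLoc q
  have : Finite M := Module.finite_of_finite (ZMod p)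
  intro a
  choose U hU hUfix using hM
  obtain ⟨W, hW, hWle⟩ := h𝒰.exists_le_of_finite U hU
  obtain ⟨V, hV, hVχ⟩ := exists_level_chiLoc_eq_one q p
  obtain ⟨W', hW', hW'le⟩ := h𝒰.inf W hW V hV
  refine ⟨W', hW', fun s hs => ?_⟩
  rw [hA, hVχ s (hW'le hs).2]
  ext m
  rw [Units.val_one, one_smul, LinearMap.comp_apply,
    hUfix m s⁻¹ (hWle m (W.inv_mem (hW'le hs).1))]

include hM hA in
/-- **Local Tate duality, right kernel of the cup product, raw cochain form** (any prime `q`, any
prime `p`).  If the cup product of the level 1-cocycle `y` of `M' = Hom(M, 𝔽_p)(1)` with every level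
1-cocycle `x` of `M` becomes a level coboundary in `ℚ̄_qˣ`, then `y` is a coboundary. -/
theorem local_right_kernel
    (y : Γq → Module.Dual (ZMod p) M) (hyl : IsLevel₁ (levelLoc q).sets y)
    (hyc : dOne ρA y = 0)
    (H : ∀ x : Γq → M, IsLevel₁ (levelLoc q).sets x → dOne ρM x = 0 →
      ∃ u : Γq → unitsLoc q, IsLevel₁ (levelLoc q).sets u ∧
        dOne (unitsLoc q).ρ u = fun g => (muLoc p q).j ((ρA g.1 (y g.2)) (x g.1))) :
    ∃ a : Module.Dual (ZMod p) M, dZero ρA a = y := by
  have h𝒰 := isLevelBasis_levelLoc q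
  have : Finite M := Module.finite_of_finite (ZMod p)
  have : Finite (Module.Dual (ZMod p) M) := Module.finite_of_finite (ZMod p)
  have hAd : HyperLevel25.IsDiscrete (levelLoc q).sets (intRep intSurj_int ρA) :=
    isDiscrete_dual q p ρM hM ρA hA
  have h0 : HyperLevel25.IsDiscrete (levelLoc q).sets (HpAt29.freeRes (intRep intSurj_int ρA)).ρ0 :=
    FreeRes29.isDiscrete_freeRep h𝒰 hAd
  have hpA : ∀ m : Module.Dual (ZMod p) M, p • m = 0 := fun m => by
    rw [← Nat.cast_smul_eq_nsmul (ZMod p), ZMod.natCast_self, zero_smul]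
  obtain ⟨a, ha⟩ := right_kernel_raw intSurj_int h𝒰
    (toResolved (HpAt29.freeRes (intRep intSurj_int ρA)) h0) ρM hM (chiLoc q p) hA
    (isDiscrete_unitsLoc' q) (muLoc p q) (exists_zsmul_eq_unitsLoc p q)
    (fun w hw => pair11_right_kernel_local q _ p hpA w hw)
    y hyl (by
      funext g
      exact congrFun hyc g)
    (fun x hxl hxc => by
      obtain ⟨u, hu, hdu⟩ := H x hxl (by
        funext g
        exact congrFun hxc g)
      exact ⟨u, hu, hdu⟩)
  refine ⟨a, ?_⟩
  funext g
  exact congrFun ha g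

end Fermat.Agent.TW.LocalDuality.LocalRightKernel22
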