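/-
Program TW (S56, Taylor–Wiles primes), chapter LocalDuality (WP2), helper22.

`LocalPairing22`: **the local Tate pairing at a prime `q`** on Mathlib's `groupCohomology.H1`, for
`Γ_q = Gal(ℚ̄_q/ℚ_q)`, a finite-dimensional discrete `𝔽_p[Γ_q]`-module `(M, ρM)` and its twisted dual
`(M' = Hom(M, 𝔽_p), ρA)` (`hA`):

* `tauLoc q p`    : an injective `τ_q : H²_lev(Γ_q; ℚ̄_qˣ)[p] →+ ℤ/p` (local class formation:
                    fundamental classes at all finite levels, `LocalSide11` + `InvFund18`);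
* `toLev`         : the dictionary `continuousH1 r_q A ≃ Hlev1 (levelLoc q) (intRep A)` (bijective);
* `levPair`       : `H¹_lev(M) →+ H¹_lev(M') →+ ℤ/p`, `(x, y) ↦ τ_q ⟨compare1 x, y⟩` — by
                    `PairFormula22` this is `τ_q` of the class of the cup product
                    `(g, h) ↦ ζ^{(g • y(h))(x(g))}`;
* `locPairing`    : `H1 (Rep.of ρM) →ₗ[𝔽_p] H1 (Rep.of ρA) →ₗ[𝔽_p] 𝔽_p`, equal to `lam * levPair` on
                    continuous classes (`locPairing_mk`), extended to all classes through linear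
                    projections onto the continuous classes;
* `locPairing_right_nondeg` : for `lam ≠ 0`, a continuous class `y` of `M'` orthogonal to all
                    continuous classes of `M` is zero (from `LocalHypR11.pair11_right_kernel_local`).
-/
import Mathlib
import Fermat.Agent.TW.LocalDuality.LocalRightKernel22
import Fermat.Agent.PT.PRO.InvFund18
import Fermat.Agent.PT.PRO.PairP4
import Fermat.Agent.PT.PRO.LevelEquiv29
import Fermat.Agent.PT.PRO.KerIsoMain7
import Fermat.Agent.PT.BR.Interface29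

set_option autoImplicit false
set_option linter.unusedSectionVars false

namespace Fermat.Agent.TW.LocalDuality.LocalPairing22

open Function ExtCitation groupCohomology
open Fermat.Agent.PT.PRO Fermat.Agent.PT.PRO.HyperLevel25 Fermat.Agent.PT.PRO.Resolved4
open Fermat.Agent.PT.PRO.ExtPairing4 Fermat.Agent.PT.PRO.ExtPairingB4
open Fermat.Agent.PT.PRO.KerIso7 Fermat.Agent.PT.PRO.KerIsoGal7
open Fermat.Agent.PT.PRO.IndRes20 Fermat.Agent.PT.PRO.Setup20
open Fermat.Agent.PT.PRO.InvP4 Fermat.Agent.PT.PRO.PairP4 Fermat.Agent.PT.PRO.LevelEquiv29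
open Fermat.Agent.PT.GLUE.Objects21 Fermat.Agent.PT.GLUE.LocalHypR11
open Fermat.Agent.PT.GLUE.LocalSide11
open Fermat.Agent.PT.BR
open Fermat.Agent.TW.LocalDuality.PairFormula22 Fermat.Agent.TW.LocalDuality.LocalRightKernel22

variable (q : ℕ) [Fact q.Prime] (p : ℕ) [Fact p.Prime]

/-! ### The local invariant on `p`-torsion -/

/-- Local class field theory, in the form: `H²_lev(Γ_q; ℚ̄_qˣ)[p]` embeds into `ℤ/p`. -/
theorem exists_tauLoc :
    ∃ τ : pTor p (Hlev2 (isLevelBasis_levelLoc q) (unitsLoc q).ρ (isDiscrete_unitsLoc' q)) →+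
        ZMod p, Injective τ :=
  InvFund18.exists_inv_of_isFundClass (unitsLoc q).ρ (isLevelBasis_levelLoc q)
    (isDiscrete_unitsLoc' q) (fun V hV hn => by
      have := hn
      exact exists_isFundClass_of_mem_levelLoc q hV p)

/-- A chosen injective `τ_q : H²_lev(Γ_q; ℚ̄_qˣ)[p] →+ ℤ/p`. -/
noncomputable def tauLoc :
    pTor p (Hlev2 (isLevelBasis_levelLoc q) (unitsLoc q).ρ (isDiscrete_unitsLoc' q)) →+ ZMod p :=
  Classical.choose (exists_tauLoc q p)

theorem tauLoc_injective : Injective (tauLoc q p) := Classical.choose_spec (exists_tauLoc q p)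

/-! ### The dictionary `continuousH1 ≃ Hlev1` for the local group -/

section Dict

variable (A : Rep.{0} (ZMod p) (PadicAlgCl q ≃ₐ[ℚ_[q]] PadicAlgCl q))

theorem range_toH1_levelLoc :
    LinearMap.range (Interface29.toH1 (levelLoc q) A) =
      continuousH1 (localGaloisToGlobal q) A := by
  ext x
  rw [Interface29.mem_range_toH1_iff, mem_continuousH1_iff]
  exact exists_congr fun c => and_congr_left fun _ => isLevel₁_levelLoc_iff q _

/-- Level `H¹` of `LevelCoh28` for `levelLoc q` is the prelude's `continuousH1`. -/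
noncomputable def h1cEquiv :
    LevelCoh28.H1 (levelLoc q) A ≃ₗ[ZMod p] ↥(continuousH1 (localGaloisToGlobal q) A) :=
  (LinearEquiv.ofInjective _ (Interface29.toH1_injective (levelLoc q) A)).trans
    (LinearEquiv.ofEq _ _ (range_toH1_levelLoc q p A))

@[simp] theorem coe_h1cEquiv (y : LevelCoh28.H1 (levelLoc q) A) :
    ((h1cEquiv q p A y : ↥(continuousH1 (localGaloisToGlobal q) A)) : H1 A) =
      Interface29.toH1 (levelLoc q) A y := rfl

variable (hA : LevelCoh28.IsDiscrete (levelLoc q).sets A)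

/-- The dictionary from the prelude's continuous classes to `Hlev1` of the underlying
`ℤ`-representation. -/
noncomputable def toLev :
    ↥(continuousH1 (localGaloisToGlobal q) A) →+
      Hlev1 (isLevelBasis_levelLoc q) (IntRep20.intRep A) hA :=
  (h1IntEquiv (levelLoc q) A hA).toAddMonoidHom.comp (h1cEquiv q p A).symm.toAddMonoidHom

theorem toLev_bijective : Bijective (toLev q p A hA) :=
  (h1IntEquiv (levelLoc q) A hA).bijective.comp (h1cEquiv q p A).symm.bijective

/-- The dictionary on representatives. -/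
theorem toLev_mk (c : cocycles₁ A) (hc : IsLevelConstant₁ (localGaloisToGlobal q) c) :
    toLev q p A hA ⟨(H1π A).hom c, H1π_mem_continuousH1 _ A hc⟩ =
      cl1 (isLevelBasis_levelLoc q) (IntRep20.intRep A) hA (c : _ → A)
        ((isLevel₁_levelLoc_iff q _).2 hc) ((LevelCompare13.mem_cocycles₁_iff A _).1 c.2) := by
  have hz : (c : _ → A) ∈ LevelCoh28.Z1 (levelLoc q) A :=
    ⟨c.2, (isLevel₁_levelLoc_iff q _).2 hc⟩
  have h1 : (h1cEquiv q p A).symm ⟨(H1π A).hom c, H1π_mem_continuousH1 _ A hc⟩ =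
      LevelCoh28.H1mk (levelLoc q) A ⟨c, hz⟩ := by
    rw [LinearEquiv.symm_apply_eq]
    apply Subtype.ext
    rw [coe_h1cEquiv, Interface29.toH1_mk]
    rfl
  show h1IntEquiv (levelLoc q) A hA ((h1cEquiv q p A).symm _) = _
  rw [h1, h1IntEquiv_mk]
  rfl

end Dict

/-! ### The pairing on level cohomology -/

section LevPair

variable {M : Type} [AddCommGroup M] [Module (ZMod p) M] [FiniteDimensional (ZMod p) M]
  (ρM : Representation (ZMod p) (PadicAlgCl q ≃ₐ[ℚ_[q]] PadicAlgCl q) M)
  (hM : HyperLevel25.IsDiscrete (levelLoc q).sets ρM)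
  (ρA : Representation (ZMod p) (PadicAlgCl q ≃ₐ[ℚ_[q]] PadicAlgCl q) (Module.Dual (ZMod p) M))
  (hA : ∀ g a, ρA g a = (chiLoc q p g : ZMod p) • (a ∘ₗ ρM g⁻¹))

/-- `p` kills the dual. -/
theorem nsmul_dual_eq_zero (m : Module.Dual (ZMod p) M) : p • m = 0 := by
  rw [← Nat.cast_smul_eq_nsmul (ZMod p), ZMod.natCast_self, zero_smul]

include hM hA in
theorem disc0_freeRes :
    HyperLevel25.IsDiscrete (levelLoc q).sets (HpAt29.freeRes (intRep intSurj_int ρA)).ρ0 :=
  FreeRes29.isDiscrete_freeRep (isLevelBasis_levelLoc q) (isDiscrete_dual q p ρM hM ρA hA)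

/-- The canonical resolution of `M'` as a resolved module. -/
noncomputable abbrev resP :=
  toResolved (HpAt29.freeRes (intRep intSurj_int ρA)) (disc0_freeRes q p ρM hM ρA hA)

/-- **The local pairing on level cohomology**, `(x, y) ↦ τ_q (pair11 (compare1 x) y)`. -/
noncomputable def levPair :
    Hlev1 (isLevelBasis_levelLoc q) (IntRep20.intRep (Rep.of ρM)) hM →+
      Hlev1 (isLevelBasis_levelLoc q) (IntRep20.intRep (Rep.of ρA))
        (isDiscrete_dual q p ρM hM ρA hA) →+ ZMod p :=
  have : Finite M := Module.finite_of_finite (ZMod p)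
  have : Finite (Module.Dual (ZMod p) M) := Module.finite_of_finite (ZMod p)
  (alphaP (evalPairing (resP q p ρM hM ρA hA) (isLevelBasis_levelLoc q) (unitsLoc q).ρ
      (isDiscrete_unitsLoc' q)) (isLevelBasis_levelLoc q) (isDiscrete_unitsLoc' q)
      (nsmul_dual_eq_zero p) (tauLoc q p)).comp
    (compare1 intSurj_int (isLevelBasis_levelLoc q) (resP q p ρM hM ρA hA) ρM hM (chiLoc q p) hA
      (isDiscrete_unitsLoc' q) (muLoc p q)).toAddMonoidHom

/-- Right kernel of the level pairing. -/
theorem levPair_right_kernel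
    (y : Hlev1 (isLevelBasis_levelLoc q) (IntRep20.intRep (Rep.of ρA))
      (isDiscrete_dual q p ρM hM ρA hA))
    (h : ∀ x, levPair q p ρM hM ρA hA x y = 0) : y = 0 := by
  have : Finite M := Module.finite_of_finite (ZMod p)
  have : Finite (Module.Dual (ZMod p) M) := Module.finite_of_finite (ZMod p)
  refine alphaP_right_kernel (evalPairing (resP q p ρM hM ρA hA) (isLevelBasis_levelLoc q)
    (unitsLoc q).ρ (isDiscrete_unitsLoc' q)) (isLevelBasis_levelLoc q) (isDiscrete_unitsLoc' q)
    (nsmul_dual_eq_zero p) (tauLoc q p) (tauLoc_injective q p)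
    (fun w hw => pair11_right_kernel_local q _ p (nsmul_dual_eq_zero p) w hw) y (fun ξ => ?_)
  obtain ⟨x, rfl⟩ := (compare1_bijective intSurj_int (isLevelBasis_levelLoc q)
    (resP q p ρM hM ρA hA) ρM hM (chiLoc q p) hA (isDiscrete_unitsLoc' q) (muLoc p q)
    (exists_zsmul_eq_unitsLoc p q)).2 ξ
  exact h x

end LevPair

/-! ### Linear-algebra helpers: bi-additive maps of `𝔽_p`-vector spaces are bilinear; projections -/

section Helpers

variable {p}
variable {X Y : Type*} [AddCommGroup X] [Module (ZMod p) X] [AddCommGroup Y] [Module (ZMod p) Y]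

/-- A bi-additive map between `𝔽_p`-vector spaces as a bilinear map. -/
noncomputable def toZModLin₂ (B : X →+ Y →+ ZMod p) : X →ₗ[ZMod p] Y →ₗ[ZMod p] ZMod p :=
  AddMonoidHom.toZModLinearMap p
    (AddMonoidHom.mk' (fun x => AddMonoidHom.toZModLinearMap p (B x)) (fun x x' => by
      ext y
      simp))

@[simp] theorem toZModLin₂_apply (B : X →+ Y →+ ZMod p) (x : X) (y : Y) :
    toZModLin₂ B x y = B x y := rfl

/-- `(x, y) ↦ lam * L (f x) (g y)` as a bi-additive map. -/
noncomputable def biComp {E F : Type*} [AddCommGroup E] [AddCommGroup F] (lam : ZMod p)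
    (L : E →+ F →+ ZMod p) (f : X →+ E) (g : Y →+ F) : X →+ Y →+ ZMod p :=
  AddMonoidHom.mk' (fun x => AddMonoidHom.mk' (fun y => lam * L (f x) (g y))
      (fun y y' => by rw [map_add, map_add, mul_add]))
    (fun x x' => by
      ext y
      show lam * _ = lam * _ + lam * _
      rw [map_add, map_add, AddMonoidHom.add_apply, mul_add])

@[simp] theorem biComp_apply {E F : Type*} [AddCommGroup E] [AddCommGroup F] (lam : ZMod p)
    (L : E →+ F →+ ZMod p) (f : X →+ E) (g : Y →+ F) (x : X) (y : Y) :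
    biComp lam L f g x y = lam * L (f x) (g y) := rfl

/-- A linear projection onto a subspace. -/
noncomputable def projOnto (W : Submodule (ZMod p) X) : X →ₗ[ZMod p] W :=
  Submodule.projectionOnto W _ (Classical.choose_spec (Submodule.exists_isCompl W))

theorem projOnto_apply_mem (W : Submodule (ZMod p) X) (x : X) (hx : x ∈ W) :
    projOnto W x = ⟨x, hx⟩ :=
  Submodule.projectionOnto_apply_of_mem_left _ hx

end Helpers

/-! ### The local pairing on Mathlib's `H1` -/

section LocPairing

variable {M : Type} [AddCommGroup M] [Module (ZMod p) M] [FiniteDimensional (ZMod p) M]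
  (ρM : Representation (ZMod p) (PadicAlgCl q ≃ₐ[ℚ_[q]] PadicAlgCl q) M)
  (hM : HyperLevel25.IsDiscrete (levelLoc q).sets ρM)
  (ρA : Representation (ZMod p) (PadicAlgCl q ≃ₐ[ℚ_[q]] PadicAlgCl q) (Module.Dual (ZMod p) M))
  (hA : ∀ g a, ρA g a = (chiLoc q p g : ZMod p) • (a ∘ₗ ρM g⁻¹))
  (lam : ZMod p)

/-- The bi-additive form of the local pairing. -/
noncomputable def locPairingAdd : H1 (Rep.of ρM) →+ H1 (Rep.of ρA) →+ ZMod p :=
  biComp lam (levPair q p ρM hM ρA hA)
    ((toLev q p (Rep.of ρM) hM).comp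
      (projOnto (continuousH1 (localGaloisToGlobal q) (Rep.of ρM))).toAddMonoidHom)
    ((toLev q p (Rep.of ρA) (isDiscrete_dual q p ρM hM ρA hA)).comp
      (projOnto (continuousH1 (localGaloisToGlobal q) (Rep.of ρA))).toAddMonoidHom)

/-- **The local Tate pairing at `q`** on Mathlib's `H1` (scaled by `lam`). -/
noncomputable def locPairing :
    H1 (Rep.of ρM) →ₗ[ZMod p] H1 (Rep.of ρA) →ₗ[ZMod p] ZMod p :=
  toZModLin₂ (locPairingAdd q p ρM hM ρA hA lam)

theorem locPairing_eq_add (x : H1 (Rep.of ρM)) (y : H1 (Rep.of ρA)) :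
    locPairing q p ρM hM ρA hA lam x y = locPairingAdd q p ρM hM ρA hA lam x y := rfl

theorem locPairingAdd_apply (x : H1 (Rep.of ρM)) (y : H1 (Rep.of ρA)) :
    locPairingAdd q p ρM hM ρA hA lam x y = lam * levPair q p ρM hM ρA hA
      (toLev q p (Rep.of ρM) hM (projOnto (continuousH1 (localGaloisToGlobal q) (Rep.of ρM)) x))
      (toLev q p (Rep.of ρA) (isDiscrete_dual q p ρM hM ρA hA)
        (projOnto (continuousH1 (localGaloisToGlobal q) (Rep.of ρA)) y)) := rfl

/-- The local pairing on continuous classes. -/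
theorem locPairing_apply_mem (x : H1 (Rep.of ρM)) (hx : x ∈ continuousH1 (localGaloisToGlobal q) (Rep.of ρM))
    (y : H1 (Rep.of ρA)) (hy : y ∈ continuousH1 (localGaloisToGlobal q) (Rep.of ρA)) :
    locPairing q p ρM hM ρA hA lam x y =
      lam * levPair q p ρM hM ρA hA (toLev q p (Rep.of ρM) hM ⟨x, hx⟩)
        (toLev q p (Rep.of ρA) (isDiscrete_dual q p ρM hM ρA hA) ⟨y, hy⟩) :=
  (locPairing_eq_add q p ρM hM ρA hA lam x y).trans
    ((locPairingAdd_apply q p ρM hM ρA hA lam x y).trans
      (congrArg₂ (fun a b => lam * levPair q p ρM hM ρA hA (toLev q p (Rep.of ρM) hM a)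
          (toLev q p (Rep.of ρA) (isDiscrete_dual q p ρM hM ρA hA) b))
        (projOnto_apply_mem _ x hx) (projOnto_apply_mem _ y hy)))

/-- **Right non-degeneracy of the local Tate pairing on continuous classes** (`lam ≠ 0`). -/
theorem locPairing_right_nondeg (hlam : lam ≠ 0)
    (y : H1 (Rep.of ρA)) (hy : y ∈ continuousH1 (localGaloisToGlobal q) (Rep.of ρA))
    (h : ∀ x ∈ continuousH1 (localGaloisToGlobal q) (Rep.of ρM),
      locPairing q p ρM hM ρA hA lam x y = 0) : y = 0 := by
  have h0 : toLev q p (Rep.of ρA) (isDiscrete_dual q p ρM hM ρA hA) ⟨y, hy⟩ = 0 := by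
    apply levPair_right_kernel q p ρM hM ρA hA
    intro x'
    obtain ⟨⟨x, hx⟩, rfl⟩ := (toLev_bijective q p (Rep.of ρM) hM).2 x'
    have h1 := h x hx
    rw [locPairing_apply_mem q p ρM hM ρA hA lam x hx y hy] at h1
    exact (mul_eq_zero.1 h1).resolve_left hlam
  have h2 : (⟨y, hy⟩ : ↥(continuousH1 (localGaloisToGlobal q) (Rep.of ρA))) = 0 :=
    (toLev_bijective q p (Rep.of ρA) (isDiscrete_dual q p ρM hM ρA hA)).1
      (h0.trans (map_zero (toLev q p (Rep.of ρA) (isDiscrete_dual q p ρM hM ρA hA))).symm)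
  exact congrArg Subtype.val h2

end LocPairing

end Fermat.Agent.TW.LocalDuality.LocalPairing22
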