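/-
Program TW (S56, Taylor–Wiles primes), chapter LocalDuality (WP2), helper22.

`TatePairing22`: the deliverable of WP2 against `TW/Spec/Contract52`:

* `tatePairingAt p M hsm lam : Contract52.PrimePairings p M` — the family of local Tate pairings
  `H¹(ℚ_q, M) × H¹(ℚ_q, M^*(1)) → 𝔽_p` at all primes `q`, for a finite-dimensional smooth
  `𝔽_p[G_ℚ]`-module `M`, scaled at `q` by `lam q` (the global reciprocity law of WP3 holds for a
  suitable choice of the units `lam q`, depending on `S`);
* `tatePairingAt_apply_mem` : on continuous classes the pairing is `lam q * levPair (toLev x) (toLev y)`,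
  i.e. `lam q * τ_q` of the class of the cup product (`LocalPairing22`, `PairFormula22`);
* `rightNondegAt : lam q ≠ 0 → Contract52.RightNondegAt p M (tatePairingAt p M hsm lam) q` for EVERY
  prime `q` (local Tate duality, right kernel).
-/
import Mathlib
import Fermat.Agent.TW.Spec.Contract52
import Fermat.Agent.TW.LocalDuality.LocalPairing22

set_option autoImplicit false
set_option linter.unusedSectionVars false

namespace Fermat.Agent.TW.LocalDuality.TatePairing22

open Function ExtCitation groupCohomology CategoryTheory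
open Fermat.Agent.PT.PRO Fermat.Agent.PT.PRO.HyperLevel25 Fermat.Agent.PT.PRO.Resolved4
open Fermat.Agent.PT.GLUE.Objects21
open Fermat.Agent.TW.Spec.Defs52 Fermat.Agent.TW.Spec.Contract52
open Fermat.Agent.TW.LocalDuality.LocalRightKernel22 Fermat.Agent.TW.LocalDuality.LocalPairing22

variable (p : ℕ) [Fact p.Prime] (M : Rep.{0} (ZMod p) GQ) [FiniteDimensional (ZMod p) M]
  (hsm : ∀ m : M, ∃ F : IntermediateField ℚ (AlgebraicClosure ℚ), FiniteDimensional ℚ F ∧
    ∀ s ∈ F.fixingSubgroup, M.ρ s m = m)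

/-- The action of the local group at `q` on (the carrier of) `M`. -/
noncomputable abbrev rhoAt (q : Nat.Primes) :
    Representation (ZMod p) (PadicAlgCl (q : ℕ) ≃ₐ[ℚ_[(q : ℕ)]] PadicAlgCl (q : ℕ)) M :=
  M.ρ.comp (localGaloisToGlobal (q : ℕ))

/-- The action of the local group at `q` on `M^*(1)`. -/
noncomputable abbrev rhoDualAt (q : Nat.Primes) :
    Representation (ZMod p) (PadicAlgCl (q : ℕ) ≃ₐ[ℚ_[(q : ℕ)]] PadicAlgCl (q : ℕ))
      (Module.Dual (ZMod p) M) :=
  (M.dualTwist (cycloChar p)).ρ.comp (localGaloisToGlobal (q : ℕ))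

include hsm in
/-- A smooth module is discrete for the local level basis. -/
theorem isDiscrete_rhoAt (q : Nat.Primes) :
    HyperLevel25.IsDiscrete (levelLoc (q : ℕ)).sets (rhoAt p M q) := by
  intro m
  obtain ⟨F, hF, h⟩ := hsm m
  exact ⟨_, ⟨_, ⟨F, hF, rfl⟩, rfl⟩, fun s hs => h _ hs⟩

theorem hA_rhoDualAt (q : Nat.Primes)
    (g : PadicAlgCl (q : ℕ) ≃ₐ[ℚ_[(q : ℕ)]] PadicAlgCl (q : ℕ)) (a : Module.Dual (ZMod p) M) :
    rhoDualAt p M q g a = (chiLoc (q : ℕ) p g : ZMod p) • (a ∘ₗ rhoAt p M q g⁻¹) := by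
  show (M.dualTwist (cycloChar p)).ρ (localGaloisToGlobal (q : ℕ) g) a = _
  rw [Rep.dualTwist_ρ_apply]
  show _ = (cycloChar p (localGaloisToGlobal (q : ℕ) g) : ZMod p) •
    (a ∘ₗ M.ρ (localGaloisToGlobal (q : ℕ) g⁻¹))
  rw [map_inv (localGaloisToGlobal (q : ℕ)) g]

/-- **The local Tate pairings at all primes** (WP2 deliverable), scaled by `lam q` at `q`. -/
noncomputable def tatePairingAt (lam : Nat.Primes → ZMod p) : PrimePairings p M :=
  fun q => locPairing (q : ℕ) p (rhoAt p M q) (isDiscrete_rhoAt p M hsm q) (rhoDualAt p M q)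
    (hA_rhoDualAt p M q) (lam q)

/-- On continuous classes the pairing is `lam q * τ_q ⟨compare1 x̂, ŷ⟩` (`levPair`), where `x̂`, `ŷ` are
the classes in level cohomology `Hlev1` corresponding to `x`, `y` (`toLev`, `toLev_mk`). -/
theorem tatePairingAt_apply_mem (lam : Nat.Primes → ZMod p) (q : Nat.Primes)
    (x : H1 (resAt q M)) (hx : x ∈ H1cAt q M)
    (y : H1 (resAt q (dualOf p M))) (hy : y ∈ H1cAt q (dualOf p M)) :
    tatePairingAt p M hsm lam q x y =
      lam q * levPair (q : ℕ) p (rhoAt p M q) (isDiscrete_rhoAt p M hsm q) (rhoDualAt p M q)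
        (hA_rhoDualAt p M q)
        (toLev (q : ℕ) p (Rep.of (rhoAt p M q)) (isDiscrete_rhoAt p M hsm q) ⟨x, hx⟩)
        (toLev (q : ℕ) p (Rep.of (rhoDualAt p M q))
          (isDiscrete_dual (q : ℕ) p (rhoAt p M q) (isDiscrete_rhoAt p M hsm q) (rhoDualAt p M q)
            (hA_rhoDualAt p M q)) ⟨y, hy⟩) :=
  locPairing_apply_mem (q : ℕ) p (rhoAt p M q) (isDiscrete_rhoAt p M hsm q) (rhoDualAt p M q)
    (hA_rhoDualAt p M q) (lam q) x hx y hy

/-- **Right non-degeneracy of the local Tate pairing on continuous classes, at every prime `q`.** -/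
theorem rightNondegAt (lam : Nat.Primes → ZMod p) (q : Nat.Primes) (hlam : lam q ≠ 0) :
    RightNondegAt p M (tatePairingAt p M hsm lam) q := by
  intro y hy h
  exact locPairing_right_nondeg (q : ℕ) p (rhoAt p M q) (isDiscrete_rhoAt p M hsm q)
    (rhoDualAt p M q) (hA_rhoDualAt p M q) (lam q) hlam y hy h

end Fermat.Agent.TW.LocalDuality.TatePairing22
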