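/-
Program TW (S56, Taylor–Wiles primes), chapter LocalDuality (WP2/WP3 glue), helper22.

`RecipGlue22`: the GLOBAL pairing class and its restriction to the local groups.

* `globPair p S hpS M hMS hAS` : `H¹_lev(G_S; M) →+ H¹_lev(G_S; M^*(1)) →+ H²_lev(G_S; E_S)[p]`,
  `(x, y) ↦ ⟨compare1 x, y⟩` (canonical resolution of `M^*(1)`, `μ_p ⊂ E_S`);
* `resH2_globPair` : for EVERY prime `q`, `res_q ⟨x, y⟩_{E_S} = ⟨compare1 (res_q x), res_q y⟩` in
  `H²_lev(Γ_q; ℚ̄_qˣ)` (`ResNat22.pair11_compare1_natural` at the S55 objects; the restricted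
  canonical resolution IS the canonical resolution of the restricted module, by `rfl`);
* `levPair_res` : on representatives, `levPair (res_q x) (res_q y) = τ_q (res_q ⟨x, y⟩_{E_S})`;
* `resCocycle`, `resH1At_H1π`, `isLevelConstant₁_comp_of_S` : restriction of cocycles to `Γ_q`.
-/
import Mathlib
import Fermat.Agent.TW.LocalDuality.TatePairing22
import Fermat.Agent.PT.PRO.PairingResObj1
import Fermat.Agent.PT.PRO.KerIsoMain7
import Fermat.Agent.PT.PRO.FinH1S55_9
import Fermat.Agent.PT.GLUE.LocS2_29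
import Fermat.Agent.TW.LocalDuality.ResNat22

set_option autoImplicit false
set_option linter.unusedSectionVars false

namespace Fermat.Agent.TW.LocalDuality.RecipGlue22

open Function ExtCitation groupCohomology CategoryTheory
open Fermat.Agent.PT.PRO Fermat.Agent.PT.PRO.HyperLevel25 Fermat.Agent.PT.PRO.Resolved4
open Fermat.Agent.PT.PRO.HyperCompare25 Fermat.Agent.PT.PRO.HyperRes25
open Fermat.Agent.PT.PRO.ExtPairing4 Fermat.Agent.PT.PRO.ExtPairingB4
open Fermat.Agent.PT.PRO.KerIso7 Fermat.Agent.PT.PRO.KerIsoGal7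
open Fermat.Agent.PT.PRO.IndRes20 Fermat.Agent.PT.PRO.Setup20 Fermat.Agent.PT.PRO.Objects20
open Fermat.Agent.PT.PRO.PairingRes1 Fermat.Agent.PT.PRO.PairingResObj1
open Fermat.Agent.PT.PRO.InvP4 Fermat.Agent.PT.PRO.PairP4 Fermat.Agent.PT.PRO.LevelEquiv29
open Fermat.Agent.PT.GLUE.Objects21 Fermat.Agent.PT.GLUE.LocS2_29 Fermat.Agent.PT.GLUE.LocalHypR11
open Fermat.Agent.TW.Spec.Defs52 Fermat.Agent.TW.Spec.Contract52
open Fermat.Agent.TW.LocalDuality.LocalRightKernel22 Fermat.Agent.TW.LocalDuality.LocalPairing22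
open Fermat.Agent.TW.LocalDuality.TatePairing22 Fermat.Agent.TW.LocalDuality.ResNat22

section Global

variable (p : ℕ) [Fact p.Prime] (S : Finset Nat.Primes) (hpS : pPrime p ∈ S)
  (M : Rep.{0} (ZMod p) GQ) [FiniteDimensional (ZMod p) M]
  (hsm : ∀ m : M, ∃ F : IntermediateField ℚ (AlgebraicClosure ℚ), FiniteDimensional ℚ F ∧
    ∀ s ∈ F.fixingSubgroup, M.ρ s m = m)
  (hMS : HyperLevel25.IsDiscrete (levelS S).sets (IntRep20.intRep M))
  (hAS : HyperLevel25.IsDiscrete (levelS S).sets (IntRep20.intRep (M.dualTwist (cycloChar p))))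

/-- The canonical resolution of `M^*(1)` over `G_ℚ`. -/
noncomputable abbrev resG := HpAt29.freeRes (IntRep20.intRep (M.dualTwist (cycloChar p)))

include hAS in
theorem disc0_resG : HyperLevel25.IsDiscrete (levelS S).sets (resG p M).ρ0 :=
  FreeRes29.isDiscrete_freeRep (basis (levelS S)) hAS

/-- **The global pairing** `H¹_lev(G_S; M) × H¹_lev(G_S; M^*(1)) → H²_lev(G_S; E_S)[p]`,
`(x, y) ↦ ⟨compare1 x, y⟩`. -/
noncomputable def globPair :
    Hlev1 (basis (levelS S)) (IntRep20.intRep M) hMS →+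
      Hlev1 (basis (levelS S)) (IntRep20.intRep (M.dualTwist (cycloChar p))) hAS →+
        pTor p (Hlev2 (basis (levelS S)) (ES S).ρ (isDiscrete_ES S)) :=
  have : Finite (Module.Dual (ZMod p) M) := Module.finite_of_finite (ZMod p)
  (pair11P (evP (resG p M) (disc0_resG p S M hAS) (basis (levelS S)) (ES S).ρ (isDiscrete_ES S))
      (basis (levelS S)) (isDiscrete_ES S) (nsmul_dual_eq_zero p)).comp
    (compare1 intSurj_int (basis (levelS S)) (toResolved (resG p M) (disc0_resG p S M hAS)) M.ρ hMS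
      (cycloChar p) (KerIsoMain7.hA_freeRes M (cycloChar p)) (isDiscrete_ES S)
      (muES p S hpS)).toAddMonoidHom

/-- The raw naturality statement at the prime `q` (any prime), on classes. -/
theorem resH2_globPair (q : ℕ) [Fact q.Prime]
    (x : Hlev1 (basis (levelS S)) (IntRep20.intRep M) hMS)
    (y : Hlev1 (basis (levelS S)) (IntRep20.intRep (M.dualTwist (cycloChar p))) hAS) :
    have : Finite (Module.Dual (ZMod p) M) := Module.finite_of_finite (ZMod p)
    resH2 (isLevelHom_loc S q) (basis (levelS S)) (isLevelBasis_levelLoc q)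
        (isDiscrete_ES S) (isDiscrete_unitsLoc' q) (locE S q) (locE_ρ S q)
        (globPair p S hpS M hMS hAS x y : Hlev2 (basis (levelS S)) (ES S).ρ (isDiscrete_ES S)) =
      pair11 (evP ((resG p M).comap (localGaloisToGlobal q))
          (comap_disc0 (resG p M) (disc0_resG p S M hAS) (localGaloisToGlobal q)
            (isLevelHom_loc S q)) (isLevelBasis_levelLoc q) (unitsLoc q).ρ
          (isDiscrete_unitsLoc' q)) (isLevelBasis_levelLoc q) (isDiscrete_unitsLoc' q)
        (compare1 intSurj_int (isLevelBasis_levelLoc q)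
          (toResolved ((resG p M).comap (localGaloisToGlobal q))
            (comap_disc0 (resG p M) (disc0_resG p S M hAS) (localGaloisToGlobal q)
              (isLevelHom_loc S q)))
          (M.ρ.comp (localGaloisToGlobal q))
          (IsLevelHom.isDiscrete (isLevelHom_loc S q) hMS)
          ((cycloChar p).comp (localGaloisToGlobal q))
          (KerIsoMain7.hA_comap (resG p M) M.ρ (cycloChar p)
            (KerIsoMain7.hA_freeRes M (cycloChar p)) (localGaloisToGlobal q))
          (isDiscrete_unitsLoc' q) (muLoc p q)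
          ((KerIsoMain7.resPlain intSurj_int (basis (levelS S)) (isLevelBasis_levelLoc q) M.ρ hMS
            (localGaloisToGlobal q) (isLevelHom_loc S q)).mapH1 x))
        (resM (resG p M) (disc0_resG p S M hAS) (basis (levelS S)) (isLevelBasis_levelLoc q)
          (localGaloisToGlobal q) (isLevelHom_loc S q) y) := by
  intro _
  exact pair11_compare1_natural intSurj_int (resG p M) (disc0_resG p S M hAS) (basis (levelS S))
    (isLevelBasis_levelLoc q) M.ρ hMS (cycloChar p) (KerIsoMain7.hA_freeRes M (cycloChar p))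
    (isDiscrete_ES S) (muES p S hpS) (localGaloisToGlobal q) (isLevelHom_loc S q)
    (isDiscrete_unitsLoc' q) (muLoc p q) (locE S q) (locE_ρ S q) (locE_muES p q S hpS) x y

include hsm in
/-- **Naturality of the local pairing**: on representatives, `levPair` of the restrictions of two
global level classes is `τ_q` of the restriction of the global pairing class. -/
theorem levPair_res (q : Nat.Primes)
    (cx : GQ → M) (hlx : IsLevel₁ (levelS S).sets cx) (hcx : dOne (IntRep20.intRep M) cx = 0)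
    (cy : GQ → Module.Dual (ZMod p) M) (hly : IsLevel₁ (levelS S).sets cy)
    (hcy : dOne (IntRep20.intRep (M.dualTwist (cycloChar p))) cy = 0)
    (hlx' : IsLevel₁ (levelLoc (q : ℕ)).sets (cx ∘ ⇑(localGaloisToGlobal (q : ℕ))))
    (hcx' : dOne (IntRep20.intRep (Rep.of (rhoAt p M q)))
      (cx ∘ ⇑(localGaloisToGlobal (q : ℕ))) = 0)
    (hly' : IsLevel₁ (levelLoc (q : ℕ)).sets (cy ∘ ⇑(localGaloisToGlobal (q : ℕ))))
    (hcy' : dOne (IntRep20.intRep (Rep.of (rhoDualAt p M q)))
      (cy ∘ ⇑(localGaloisToGlobal (q : ℕ))) = 0)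
    (hW : p • resH2 (isLevelHom_loc S (q : ℕ)) (basis (levelS S)) (isLevelBasis_levelLoc (q : ℕ))
        (isDiscrete_ES S) (isDiscrete_unitsLoc' (q : ℕ)) (locE S (q : ℕ)) (locE_ρ S (q : ℕ))
        (globPair p S hpS M hMS hAS (cl1 (basis (levelS S)) (IntRep20.intRep M) hMS cx hlx hcx)
          (cl1 (basis (levelS S)) (IntRep20.intRep (M.dualTwist (cycloChar p))) hAS cy hly hcy) :
          Hlev2 (basis (levelS S)) (ES S).ρ (isDiscrete_ES S)) = 0) :
    levPair (q : ℕ) p (rhoAt p M q) (isDiscrete_rhoAt p M hsm q) (rhoDualAt p M q)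
        (hA_rhoDualAt p M q)
        (cl1 (isLevelBasis_levelLoc (q : ℕ)) (IntRep20.intRep (Rep.of (rhoAt p M q)))
          (isDiscrete_rhoAt p M hsm q) (cx ∘ ⇑(localGaloisToGlobal (q : ℕ))) hlx' hcx')
        (cl1 (isLevelBasis_levelLoc (q : ℕ)) (IntRep20.intRep (Rep.of (rhoDualAt p M q)))
          (isDiscrete_dual (q : ℕ) p (rhoAt p M q) (isDiscrete_rhoAt p M hsm q) (rhoDualAt p M q)
            (hA_rhoDualAt p M q)) (cy ∘ ⇑(localGaloisToGlobal (q : ℕ))) hly' hcy') =
      tauLoc (q : ℕ) p ⟨resH2 (isLevelHom_loc S (q : ℕ)) (basis (levelS S))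
        (isLevelBasis_levelLoc (q : ℕ)) (isDiscrete_ES S) (isDiscrete_unitsLoc' (q : ℕ))
        (locE S (q : ℕ)) (locE_ρ S (q : ℕ))
        (globPair p S hpS M hMS hAS (cl1 (basis (levelS S)) (IntRep20.intRep M) hMS cx hlx hcx)
          (cl1 (basis (levelS S)) (IntRep20.intRep (M.dualTwist (cycloChar p))) hAS cy hly hcy) :
          Hlev2 (basis (levelS S)) (ES S).ρ (isDiscrete_ES S)), hW⟩ := by
  have : Finite (Module.Dual (ZMod p) M) := Module.finite_of_finite (ZMod p)
  refine congrArg (tauLoc (q : ℕ) p) (Subtype.ext ?_)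
  exact (resH2_globPair p S hpS M hMS hAS (q : ℕ)
    (cl1 (basis (levelS S)) (IntRep20.intRep M) hMS cx hlx hcx)
    (cl1 (basis (levelS S)) (IntRep20.intRep (M.dualTwist (cycloChar p))) hAS cy hly hcy)).symm

/-- Restriction of an `S`-level-constant function along `r_q` is level-constant. -/
theorem isLevelConstant₁_comp_of_S {X : Type*} (q : ℕ) [Fact q.Prime] {f : GQ → X}
    (hf : IsLevelConstantS₁ S f) :
    IsLevelConstant₁ (localGaloisToGlobal q) (f ∘ ⇑(localGaloisToGlobal q)) := by
  obtain ⟨F, hF, h⟩ := hf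
  refine ⟨F, hF.1, fun g s hs => ?_⟩
  simp only [Function.comp_apply, map_mul]
  exact h _ _ hs

/-- The restriction of a global cocycle to the local group at `q`. -/
noncomputable def resCocycle (A : Rep.{0} (ZMod p) GQ) (q : Nat.Primes) (c : cocycles₁ A) :
    cocycles₁ (resAt q A) :=
  (mapCocycles₁ (locAt q) (𝟙 (resAt q A))).hom c

theorem coe_resCocycle (A : Rep.{0} (ZMod p) GQ) (q : Nat.Primes) (c : cocycles₁ A) :
    (resCocycle p A q c : primeLocalGaloisGroup q → A) =
      (c : GQ → A) ∘ ⇑(localGaloisToGlobal (q : ℕ)) := rfl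

theorem resH1At_H1π (A : Rep.{0} (ZMod p) GQ) (q : Nat.Primes) (c : cocycles₁ A) :
    resH1At q A ((H1π A).hom c) = (H1π (resAt q A)).hom (resCocycle p A q c) :=
  H1π_comp_map_apply _ _ _

end Global

end Fermat.Agent.TW.LocalDuality.RecipGlue22
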