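/-
Program TW (S56, Taylor–Wiles primes), chapter LocalDuality (WP2/WP3 glue), helper22.

`Reciprocity22`: **the reciprocity law `Contract52.Reciprocity` for the scaled local Tate pairings
`TatePairing22.tatePairingAt`, from the sum formula for the local invariants.**

* `tatePairingAt_res` : for global `S`-level-constant cocycles `cx`, `cy`,
  `tatePairingAt … q (res_q [cx]) (res_q [cy]) = lam q * τ_q (res_q ⟨[cx], [cy]⟩_{E_S})`;
* `SumFormula p S lam` : `∑_{q ∈ S} lam q * τ_q (res_q W) = 0` for all `W ∈ H²_lev(G_S; E_S)[p]`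
  (the conclusion of helper94's `RecipQ94.exists_lam` for `tq q := tauLoc q p`);
* `reciprocity_tatePairingAt` : `SumFormula p S lam → Contract52.Reciprocity p S M (assemblePairings
  p S M (tatePairingAt p M hsm (extendLam p S lam)))`;
* `exists_pairings` : `(∃ lam, (∀ q, lam q ≠ 0) ∧ SumFormula p S lam) → ∃ pa, Reciprocity … ∧
  ∀ q, RightNondegAt p M pa q` — the `pairings` field of `Glue52b.DeliverablesB` for a general `M`.
-/
import Mathlib
import Fermat.Agent.TW.LocalDuality.RecipGlue22
import Fermat.Agent.PT.PRO.FinH1S55_9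

set_option autoImplicit false
set_option linter.unusedSectionVars false

namespace Fermat.Agent.TW.LocalDuality.Reciprocity22

open Function ExtCitation groupCohomology CategoryTheory
open Fermat.Agent.PT.PRO Fermat.Agent.PT.PRO.HyperLevel25 Fermat.Agent.PT.PRO.Resolved4
open Fermat.Agent.PT.PRO.HyperRes25
open Fermat.Agent.PT.PRO.ExtPairing4
open Fermat.Agent.PT.PRO.PairingRes1
open Fermat.Agent.PT.PRO.InvP4 Fermat.Agent.PT.PRO.LevelEquiv29
open Fermat.Agent.PT.GLUE.Objects21 Fermat.Agent.PT.GLUE.LocS2_29 Fermat.Agent.PT.GLUE.LocalHypR11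
open Fermat.Agent.TW.Spec.Defs52 Fermat.Agent.TW.Spec.Contract52
open Fermat.Agent.TW.LocalDuality.LocalRightKernel22 Fermat.Agent.TW.LocalDuality.LocalPairing22
open Fermat.Agent.TW.LocalDuality.TatePairing22 Fermat.Agent.TW.LocalDuality.RecipGlue22

variable (p : ℕ) [Fact p.Prime] (S : Finset Nat.Primes) (hpS : pPrime p ∈ S)
  (M : Rep.{0} (ZMod p) GQ) [FiniteDimensional (ZMod p) M]
  (hsm : ∀ m : M, ∃ F : IntermediateField ℚ (AlgebraicClosure ℚ), FiniteDimensional ℚ F ∧
    ∀ s ∈ F.fixingSubgroup, M.ρ s m = m)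
  (hMS : HyperLevel25.IsDiscrete (levelS S).sets (IntRep20.intRep M))
  (hAS : HyperLevel25.IsDiscrete (levelS S).sets (IntRep20.intRep (M.dualTwist (cycloChar p))))

/-- The class in `H¹_lev(G_S; A)` of an `S`-level-constant cocycle. -/
noncomputable def globCl (A : Rep.{0} (ZMod p) GQ)
    (hA : HyperLevel25.IsDiscrete (levelS S).sets (IntRep20.intRep A))
    (c : cocycles₁ A) (hc : IsLevelConstantS₁ S c) :
    Hlev1 (basis (levelS S)) (IntRep20.intRep A) hA :=
  cl1 (basis (levelS S)) (IntRep20.intRep A) hA (c : GQ → A) ((isLevel₁_levelS_iff S _).2 hc)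
    ((LevelCompare13.mem_cocycles₁_iff A _).1 c.2)

/-- `p`-torsion is preserved by the restriction maps. -/
theorem nsmul_resH2 (q : ℕ) [Fact q.Prime]
    (W : Hlev2 (basis (levelS S)) (ES S).ρ (isDiscrete_ES S)) (hW : p • W = 0) :
    p • resH2 (isLevelHom_loc S q) (basis (levelS S)) (isLevelBasis_levelLoc q)
      (isDiscrete_ES S) (isDiscrete_unitsLoc' q) (locE S q) (locE_ρ S q) W = 0 := by
  rw [← map_nsmul, hW, map_zero]

/-- The restriction `H²_lev(G_S; E_S)[p] → H²_lev(Γ_q; ℚ̄_qˣ)[p]`. -/
noncomputable def resTor (q : ℕ) [Fact q.Prime]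
    (W : pTor p (Hlev2 (basis (levelS S)) (ES S).ρ (isDiscrete_ES S))) :
    pTor p (Hlev2 (isLevelBasis_levelLoc q) (unitsLoc q).ρ (isDiscrete_unitsLoc' q)) :=
  ⟨resH2 (isLevelHom_loc S q) (basis (levelS S)) (isLevelBasis_levelLoc q)
      (isDiscrete_ES S) (isDiscrete_unitsLoc' q) (locE S q) (locE_ρ S q) W.1,
    nsmul_resH2 p S q W.1 W.2⟩

include hsm in
/-- The local pairing of the restrictions of two global `S`-classes is `lam q * τ_q` of the
restriction of the global pairing class. -/
theorem tatePairingAt_res (lam : Nat.Primes → ZMod p) (q : Nat.Primes)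
    (cx : cocycles₁ M) (hcx : IsLevelConstantS₁ S cx)
    (cy : cocycles₁ (dualOf p M)) (hcy : IsLevelConstantS₁ S cy) :
    tatePairingAt p M hsm lam q (resH1At q M ((H1π M).hom cx))
        (resH1At q (dualOf p M) ((H1π (dualOf p M)).hom cy)) =
      lam q * tauLoc (q : ℕ) p (resTor p S (q : ℕ)
        (globPair p S hpS M hMS hAS (globCl p S M hMS cx hcx)
            (globCl p S (dualOf p M) hAS cy hcy))) := by
  have hx' : IsLevelConstant₁ (localGaloisToGlobal (q : ℕ)) (resCocycle p M q cx) :=
    isLevelConstant₁_comp_of_S S (q : ℕ) hcx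
  have hy' : IsLevelConstant₁ (localGaloisToGlobal (q : ℕ)) (resCocycle p (dualOf p M) q cy) :=
    isLevelConstant₁_comp_of_S S (q : ℕ) hcy
  refine (congrArg₂ (fun a b => tatePairingAt p M hsm lam q a b) (resH1At_H1π p M q cx)
    (resH1At_H1π p (dualOf p M) q cy)).trans ?_
  refine (tatePairingAt_apply_mem p M hsm lam q _ (H1π_mem_continuousH1 _ _ hx') _
      (H1π_mem_continuousH1 _ _ hy')).trans ?_
  refine congrArg (fun z => lam q * z) ?_
  refine (congrArg₂ (fun a b => levPair (q : ℕ) p (rhoAt p M q) (isDiscrete_rhoAt p M hsm q)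
      (rhoDualAt p M q) (hA_rhoDualAt p M q) a b)
    (toLev_mk (q : ℕ) p (Rep.of (rhoAt p M q)) (isDiscrete_rhoAt p M hsm q)
      (resCocycle p M q cx) hx')
    (toLev_mk (q : ℕ) p (Rep.of (rhoDualAt p M q))
      (isDiscrete_dual (q : ℕ) p (rhoAt p M q) (isDiscrete_rhoAt p M hsm q) (rhoDualAt p M q)
        (hA_rhoDualAt p M q)) (resCocycle p (dualOf p M) q cy) hy')).trans ?_
  exact levPair_res p S hpS M hsm hMS hAS q _ _ _ _ _ _ _ _ _ _ _

open Classical in
/-- Extension of `lam : ↥S → ZMod p` by `1` outside `S`. -/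
noncomputable def extendLam (lam : ↥S → ZMod p) (q : Nat.Primes) : ZMod p :=
  if h : q ∈ S then lam ⟨q, h⟩ else 1

theorem extendLam_mem (lam : ↥S → ZMod p) (q : ↥S) : extendLam p S lam q.1 = lam q := by
  unfold extendLam
  rw [dif_pos q.2]

theorem extendLam_ne_zero (lam : ↥S → ZMod p) (h : ∀ q, lam q ≠ 0) (q : Nat.Primes) :
    extendLam p S lam q ≠ 0 := by
  unfold extendLam
  split_ifs
  · exact h _
  · exact one_ne_zero

/-- The archimedean place, as an element of `extArithIndex S`. -/
abbrev inlV (a : Unit) : extArithIndex S := Sum.inl a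

/-- The place `q ∈ S`, as an element of `extArithIndex S`. -/
abbrev inrV (q : ↥S) : extArithIndex S := Sum.inr q

theorem assemblePairings_inl (pa : PrimePairings p M) (a : Unit)
    (u : H1 (Rep.res (extArithLoc S (inlV S a)) M))
    (v : H1 (Rep.res (extArithLoc S (inlV S a)) (dualOf p M))) :
    assemblePairings p S M pa (inlV S a) u v = 0 := rfl

theorem assemblePairings_inr (pa : PrimePairings p M) (q : ↥S) (x : H1 M) (y : H1 (dualOf p M)) :
    assemblePairings p S M pa (inrV S q) ((locRes (extArithLoc S) M (inrV S q)).hom x)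
        ((locRes (extArithLoc S) (dualOf p M) (inrV S q)).hom y) =
      pa q.1 (resH1At q.1 M x) (resH1At q.1 (dualOf p M) y) := rfl

include hpS hMS hAS in
/-- **Reciprocity from the sum formula for the local invariants.** If the units `lam q` (`q ∈ S`)
satisfy `∑_{q ∈ S} lam q * τ_q (res_q W) = 0` for all `W ∈ H²_lev(G_S; E_S)[p]`, then the local Tate
pairings `tatePairingAt` scaled by `lam` satisfy the reciprocity law `Contract52.Reciprocity`. -/
theorem reciprocity_of_sum_formula (lam : ↥S → ZMod p)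
    (hsum : ∀ W : pTor p (Hlev2 (basis (levelS S)) (ES S).ρ (isDiscrete_ES S)),
      ∑ q : ↥S, lam q * tauLoc ((q : Nat.Primes) : ℕ) p
        (resTor p S ((q : Nat.Primes) : ℕ) W) = 0) :
    Reciprocity p S M (assemblePairings p S M (tatePairingAt p M hsm (extendLam p S lam))) := by
  intro x hx y hy
  obtain ⟨cx, hcx, rfl⟩ := (mem_continuousH1S_iff S M x).1 hx
  obtain ⟨cy, hcy, rfl⟩ := (mem_continuousH1S_iff S (dualOf p M) y).1 hy
  refine (Fintype.sum_sum_type (α₁ := Unit) (α₂ := ↥S) _).trans ?_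
  have h2 : ∀ q : ↥S,
      assemblePairings p S M (tatePairingAt p M hsm (extendLam p S lam)) (inrV S q)
        ((locRes (extArithLoc S) M (inrV S q)).hom ((H1π M).hom cx))
        ((locRes (extArithLoc S) (dualOf p M) (inrV S q)).hom ((H1π (dualOf p M)).hom cy)) =
      lam q * tauLoc ((q : Nat.Primes) : ℕ) p (resTor p S ((q : Nat.Primes) : ℕ)
        (globPair p S hpS M hMS hAS (globCl p S M hMS cx hcx)
            (globCl p S (dualOf p M) hAS cy hcy))) := fun q =>
    (assemblePairings_inr p S M _ q _ _).trans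
      ((tatePairingAt_res p S hpS M hsm hMS hAS (extendLam p S lam) q.1 cx hcx cy hcy).trans
        (congrArg (fun z => z * _) (extendLam_mem p S lam q)))
  refine (congrArg₂ (· + ·)
    (Finset.sum_eq_zero (fun a _ => assemblePairings_inl p S M _ a _ _))
    (Finset.sum_congr rfl (fun q _ => h2 q))).trans ?_
  rw [zero_add]
  exact hsum _

/-! ### The deliverable: `pairings` of `Glue52b.DeliverablesB` from the sum formula -/

/-- **The sum formula for the local invariants** (the global input of WP3, in the shape of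
`RecipQ94.exists_lam`): `∑_{q ∈ S} lam q * τ_q (res_q W) = 0` for every `W ∈ H²_lev(G_S; E_S)` killed
by `p`. -/
def SumFormula (lam : ↥S → ZMod p) : Prop :=
  ∀ (W : Hlev2 (basis (levelS S)) (ES S).ρ (isDiscrete_ES S)) (hW : p • W = 0),
    ∑ q : ↥S, lam q * tauLoc ((q : Nat.Primes) : ℕ) p
      ⟨resH2 (isLevelHom_loc S ((q : Nat.Primes) : ℕ)) (basis (levelS S))
          (isLevelBasis_levelLoc ((q : Nat.Primes) : ℕ)) (isDiscrete_ES S)
          (isDiscrete_unitsLoc' ((q : Nat.Primes) : ℕ)) (locE S ((q : Nat.Primes) : ℕ))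
          (locE_ρ S ((q : Nat.Primes) : ℕ)) W,
        nsmul_resH2 p S ((q : Nat.Primes) : ℕ) W hW⟩ = 0

variable (hMur : ∀ q : Nat.Primes, q ∉ S → ∀ A : ValuationSubring (AlgebraicClosure ℚ),
    A.LiesOverPrime (q : ℕ) → ∀ g ∈ A.inertiaSubgroupIn ℚ, M.ρ g = 1)

include hpS hMur in
/-- **Reciprocity for the scaled local Tate pairings.** -/
theorem reciprocity_tatePairingAt (lam : ↥S → ZMod p) (hsum : SumFormula p S lam) :
    Reciprocity p S M (assemblePairings p S M (tatePairingAt p M hsm (extendLam p S lam))) :=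
  reciprocity_of_sum_formula p S hpS M hsm
    (FinH1S55_9.isDiscrete_intRep_self S hpS M hsm hMur)
    (FinH1S55_9.isDiscrete_intRep_dualTwist S hpS M hsm hMur) lam (fun W => hsum W.1 W.2)

include hpS hsm hMur in
/-- **WP2 + WP3, the `pairings` field of `Glue52b.DeliverablesB` for a general module `M`**
(finite-dimensional, smooth, unramified outside `S ∋ p`): from units `lam q` (`q ∈ S`) satisfying
the sum formula there are local pairings at all primes satisfying reciprocity for `S` and right
non-degenerate at EVERY prime. -/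
theorem exists_pairings (h : ∃ lam : ↥S → ZMod p, (∀ q, lam q ≠ 0) ∧ SumFormula p S lam) :
    ∃ pa : PrimePairings p M, Reciprocity p S M (assemblePairings p S M pa) ∧
      ∀ q : Nat.Primes, RightNondegAt p M pa q := by
  obtain ⟨lam, hlam, hsum⟩ := h
  exact ⟨tatePairingAt p M hsm (extendLam p S lam),
    reciprocity_tatePairingAt p S hpS M hsm hMur lam hsum,
    fun q => rightNondegAt p M hsm _ q (extendLam_ne_zero p S lam hlam q)⟩

end Fermat.Agent.TW.LocalDuality.Reciprocity22
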