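/-
Program TW (S56, Taylor–Wiles primes), chapter LocalDuality (WP2), helper22.

`Cup22`: the cup product in level cohomology (vocabulary of `PT/PRO/HyperLevel25`, `Resolved4`,
`ExtPairing4`), for an abstract group `G` with a level basis `𝒰`, a finitely generated discrete
module `A` and a discrete module `C`:

  `cup : H¹(G; Hom(A, C)) × H¹(G; A) → H²(G; C)`,   `(f ∪ x)(g, h) = f(g)(g · x(h))`,

as a bilinear map on level cohomology classes (`cup`, `cup_cl1`), its nondegeneracy vocabulary, and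
the graded commutativity

  `(ev ∘ x) ∪ f = - (f ∪ x)`,   `ev : A → Hom(Hom(A, C), C)` the evaluation map

(`cup_evalMap`): this is what turns the RIGHT-kernel statement for the module `Hom(A, C)` into the
LEFT-kernel statement for `A` (`left_kernel_of_right_kernel`).
-/
import Mathlib
import Fermat.Agent.PT.PRO.ExtPairing4

set_option autoImplicit false

namespace Fermat.Agent.TW.LocalDuality.Cup22

open Function Fermat.Agent.PT.PRO.HyperLevel25 Fermat.Agent.PT.PRO.Resolved4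
  Fermat.Agent.PT.PRO.ExtPairing4

/-! ### Raw cochain formulas -/

section Raw

variable {k G : Type*} [CommRing k] [Group G]
variable {A C : Type*} [AddCommGroup A] [Module k A] [AddCommGroup C] [Module k C]
variable (ρA : Representation k G A) (ρC : Representation k G C)

/-- The raw cup product `(f ∪ x)(g, h) = f(g)(g · x(h))`. -/
def cupFun (f : G → (A →ₗ[k] C)) (x : G → A) : G × G → C :=
  fun q => f q.1 (ρA q.1 (x q.2))

/-- The raw cup product in the other order: `(x ∪' f)(g, h) = (g · f(h))(x(g))`. -/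
def cupFun' (x : G → A) (f : G → (A →ₗ[k] C)) : G × G → C :=
  fun q => (Representation.linHom ρA ρC q.1 (f q.2)) (x q.1)

@[simp] lemma cupFun_apply (f : G → (A →ₗ[k] C)) (x : G → A) (g h : G) :
    cupFun ρA f x (g, h) = f g (ρA g (x h)) := rfl

@[simp] lemma cupFun'_apply (x : G → A) (f : G → (A →ₗ[k] C)) (g h : G) :
    cupFun' ρA ρC x f (g, h) = ρC g (f h (ρA g⁻¹ (x g))) := rfl

/-- The evaluation pairing `Hom(A, C) × A → C` as a bilinear map. -/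
def evB : (A →ₗ[k] C) →ₗ[k] A →ₗ[k] C := LinearMap.id

@[simp] lemma evB_apply (y : A →ₗ[k] C) (a : A) : evB (k := k) y a = y a := rfl

lemma evB_equiv (g : G) (y : A →ₗ[k] C) (a : A) :
    evB (Representation.linHom ρA ρC g y) (ρA g a) = ρC g (evB y a) := by
  rw [evB_apply, evB_apply, Representation.linHom_apply]
  simp only [LinearMap.comp_apply, Representation.inv_self_apply]

/-- A 1-cocycle, in additive form. -/
lemma cocycle_mul {Y : Type*} [AddCommGroup Y] [Module k Y] {ρ : Representation k G Y}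
    {c : G → Y} (hc : dOne ρ c = 0) (g h : G) : c (g * h) = ρ g (c h) + c g := by
  have h1 := congrFun hc (g, h)
  rw [dOne_apply, Pi.zero_apply, sub_add_eq_add_sub, sub_eq_zero] at h1
  exact h1.symm

/-- The cup product of cocycles is a cocycle. -/
theorem dTwo_cupFun {f : G → (A →ₗ[k] C)} {x : G → A}
    (hf : dOne (Representation.linHom ρA ρC) f = 0) (hx : dOne ρA x = 0) :
    dTwo ρC (cupFun ρA f x) = 0 := by
  funext ⟨g, h, j⟩
  have h1 := leib11 (ρY := Representation.linHom ρA ρC) (ρP := ρA) (ρC := ρC) evB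
    (evB_equiv ρA ρC) f x g h j
  have e : (fun q : G × G => evB (k := k) (f q.1) (ρA q.1 (x q.2))) = cupFun ρA f x := rfl
  rw [e] at h1
  rw [h1, hf, hx]
  simp

/-- `(dφ) ∪ x = d(φ ∘ x)` for a cocycle `x`. -/
theorem cupFun_dZero_left (φ : A →ₗ[k] C) {x : G → A} (hx : dOne ρA x = 0) :
    cupFun ρA (dZero (Representation.linHom ρA ρC) φ) x = dOne ρC (fun a => φ (x a)) := by
  funext ⟨g, h⟩
  have h1 := leib01 (ρY := Representation.linHom ρA ρC) (ρP := ρA) (ρC := ρC) evB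
    (evB_equiv ρA ρC) φ x g h
  simp only [evB_apply] at h1
  rw [h1, hx]
  simp

/-- `f ∪ (da) = - d(g ↦ f(g)(g a))` for a cocycle `f`. -/
theorem cupFun_dZero_right {f : G → (A →ₗ[k] C)}
    (hf : dOne (Representation.linHom ρA ρC) f = 0) (a : A) :
    cupFun ρA f (dZero ρA a) = - dOne ρC (fun g => f g (ρA g a)) := by
  funext ⟨g, h⟩
  have h1 := leib10 (ρY := Representation.linHom ρA ρC) (ρP := ρA) (ρC := ρC) evB
    (evB_equiv ρA ρC) f a g h
  simp only [evB_apply] at h1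
  rw [Pi.neg_apply, h1, hf]
  simp

/-- **Graded commutativity on cochains**: for cocycles `f`, `x`,
`x ∪' f + f ∪ x = - d (g ↦ f(g)(x(g)))`. -/
theorem cupFun'_add_cupFun {f : G → (A →ₗ[k] C)} {x : G → A}
    (hf : dOne (Representation.linHom ρA ρC) f = 0) (hx : dOne ρA x = 0) :
    cupFun' ρA ρC x f + cupFun ρA f x = - dOne ρC (fun g => f g (x g)) := by
  funext ⟨g, h⟩
  have e1 := cocycle_mul hf g h
  have e2 := cocycle_mul hx g h
  simp only [Pi.add_apply, Pi.neg_apply, cupFun'_apply, cupFun_apply, dOne_apply]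
  rw [e1, e2]
  simp only [LinearMap.add_apply, map_add, Representation.linHom_apply, LinearMap.comp_apply,
    Representation.inv_self_apply]
  abel

end Raw

/-! ### The cup product on level cohomology -/

section Classes

variable {k G : Type*} [CommRing k] [Group G] {𝒰 : Set (Subgroup G)}
variable {A C : Type*} [AddCommGroup A] [Module k A] [AddCommGroup C] [Module k C]
  [Module.Finite k A]
variable (h𝒰 : IsLevelBasis 𝒰)
variable {ρA : Representation k G A} {ρC : Representation k G C}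
variable (hA : IsDiscrete 𝒰 ρA) (hC : IsDiscrete 𝒰 ρC)

include h𝒰 hA hC in
/-- `Hom(A, C)` is discrete. -/
theorem isDiscrete_hom : IsDiscrete 𝒰 (Representation.linHom ρA ρC) :=
  isDiscrete_linHom h𝒰 hA hC

/-- The underlying function of a level 1-cocycle. -/
abbrev fnZ1 {Y : Type*} [AddCommGroup Y] [Module k Y] {ρ : Representation k G Y}
    {hρ : IsDiscrete 𝒰 ρ} (x : (lvl h𝒰 ρ hρ).Z1) : G → Y := ((x : lev₁ k h𝒰 Y) : G → Y)

lemma fnZ1_level {Y : Type*} [AddCommGroup Y] [Module k Y] {ρ : Representation k G Y}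
    {hρ : IsDiscrete 𝒰 ρ} (x : (lvl h𝒰 ρ hρ).Z1) : IsLevel₁ 𝒰 (fnZ1 h𝒰 x) := x.1.2

lemma fnZ1_cocycle {Y : Type*} [AddCommGroup Y] [Module k Y] {ρ : Representation k G Y}
    {hρ : IsDiscrete 𝒰 ρ} (x : (lvl h𝒰 ρ hρ).Z1) : dOne ρ (fnZ1 h𝒰 x) = 0 :=
  (mem_lvl_Z1_iff h𝒰 ρ hρ x.1).1 x.2

omit [Module.Finite k A] in
include h𝒰 hA in
lemma isLevel₂_cupFun {f : G → (A →ₗ[k] C)} {x : G → A} (hf : IsLevel₁ 𝒰 f) (hx : IsLevel₁ 𝒰 x) :
    IsLevel₂ 𝒰 (cupFun ρA f x) :=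
  isLevel₂_cup11 h𝒰 hA (fun (y : A →ₗ[k] C) p => y p) hf hx

/-- The class of the cup product of two raw level cocycles. -/
def cupCl (f : G → (A →ₗ[k] C)) (x : G → A) (hfl : IsLevel₁ 𝒰 f)
    (hf : dOne (Representation.linHom ρA ρC) f = 0) (hxl : IsLevel₁ 𝒰 x) (hx : dOne ρA x = 0) :
    Hlev2 h𝒰 ρC hC :=
  cl2 h𝒰 ρC hC (cupFun ρA f x) (isLevel₂_cupFun h𝒰 hA hfl hxl) (dTwo_cupFun ρA ρC hf hx)

omit [Module.Finite k A] in
lemma cupCl_add_left {f f' f'' : G → (A →ₗ[k] C)} {x : G → A} (he : f'' = f + f')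
    (hfl : IsLevel₁ 𝒰 f) (hf : dOne (Representation.linHom ρA ρC) f = 0)
    (hfl' : IsLevel₁ 𝒰 f') (hf' : dOne (Representation.linHom ρA ρC) f' = 0)
    (hfl'' : IsLevel₁ 𝒰 f'') (hf'' : dOne (Representation.linHom ρA ρC) f'' = 0)
    (hxl : IsLevel₁ 𝒰 x) (hx : dOne ρA x = 0) :
    cupCl h𝒰 hA hC f'' x hfl'' hf'' hxl hx =
      cupCl h𝒰 hA hC f x hfl hf hxl hx + cupCl h𝒰 hA hC f' x hfl' hf' hxl hx := by
  unfold cupCl
  rw [← cl2_add]
  · apply cl2_congr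
    funext ⟨g, h⟩
    simp [cupFun, he]
  · exact h𝒰.isLevel₂_add (isLevel₂_cupFun h𝒰 hA hfl hxl) (isLevel₂_cupFun h𝒰 hA hfl' hxl)
  · rw [map_add, dTwo_cupFun ρA ρC hf hx, dTwo_cupFun ρA ρC hf' hx, add_zero]

omit [Module.Finite k A] in
lemma cupCl_smul_left (r : k) {f f'' : G → (A →ₗ[k] C)} {x : G → A} (he : f'' = r • f)
    (hfl : IsLevel₁ 𝒰 f) (hf : dOne (Representation.linHom ρA ρC) f = 0)
    (hfl'' : IsLevel₁ 𝒰 f'') (hf'' : dOne (Representation.linHom ρA ρC) f'' = 0)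
    (hxl : IsLevel₁ 𝒰 x) (hx : dOne ρA x = 0) :
    cupCl h𝒰 hA hC f'' x hfl'' hf'' hxl hx = r • cupCl h𝒰 hA hC f x hfl hf hxl hx := by
  unfold cupCl
  rw [← cl2_smul]
  · apply cl2_congr
    funext ⟨g, h⟩
    simp [cupFun, he]
  · exact (isLevel₂_cupFun h𝒰 hA hfl hxl).comp (r • ·)
  · rw [map_smul, dTwo_cupFun ρA ρC hf hx, smul_zero]

omit [Module.Finite k A] in
lemma cupCl_add_right {f : G → (A →ₗ[k] C)} {x x' x'' : G → A} (he : x'' = x + x')
    (hfl : IsLevel₁ 𝒰 f) (hf : dOne (Representation.linHom ρA ρC) f = 0)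
    (hxl : IsLevel₁ 𝒰 x) (hx : dOne ρA x = 0) (hxl' : IsLevel₁ 𝒰 x') (hx' : dOne ρA x' = 0)
    (hxl'' : IsLevel₁ 𝒰 x'') (hx'' : dOne ρA x'' = 0) :
    cupCl h𝒰 hA hC f x'' hfl hf hxl'' hx'' =
      cupCl h𝒰 hA hC f x hfl hf hxl hx + cupCl h𝒰 hA hC f x' hfl hf hxl' hx' := by
  unfold cupCl
  rw [← cl2_add]
  · apply cl2_congr
    funext ⟨g, h⟩
    simp [cupFun, he]
  · exact h𝒰.isLevel₂_add (isLevel₂_cupFun h𝒰 hA hfl hxl) (isLevel₂_cupFun h𝒰 hA hfl hxl')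
  · rw [map_add, dTwo_cupFun ρA ρC hf hx, dTwo_cupFun ρA ρC hf hx', add_zero]

omit [Module.Finite k A] in
lemma cupCl_smul_right (r : k) {f : G → (A →ₗ[k] C)} {x x'' : G → A} (he : x'' = r • x)
    (hfl : IsLevel₁ 𝒰 f) (hf : dOne (Representation.linHom ρA ρC) f = 0)
    (hxl : IsLevel₁ 𝒰 x) (hx : dOne ρA x = 0)
    (hxl'' : IsLevel₁ 𝒰 x'') (hx'' : dOne ρA x'' = 0) :
    cupCl h𝒰 hA hC f x'' hfl hf hxl'' hx'' = r • cupCl h𝒰 hA hC f x hfl hf hxl hx := by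
  unfold cupCl
  rw [← cl2_smul]
  · apply cl2_congr
    funext ⟨g, h⟩
    simp [cupFun, he]
  · exact (isLevel₂_cupFun h𝒰 hA hfl hxl).comp (r • ·)
  · rw [map_smul, dTwo_cupFun ρA ρC hf hx, smul_zero]

/-- The cup product as a bilinear map on level cocycles. -/
noncomputable def cupZZ :
    (lvl h𝒰 (Representation.linHom ρA ρC) (isDiscrete_hom h𝒰 hA hC)).Z1 →ₗ[k]
      (lvl h𝒰 ρA hA).Z1 →ₗ[k] Hlev2 h𝒰 ρC hC :=
  LinearMap.mk₂ k
    (fun f x => cupCl h𝒰 hA hC (fnZ1 h𝒰 f) (fnZ1 h𝒰 x) (fnZ1_level h𝒰 f) (fnZ1_cocycle h𝒰 f)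
      (fnZ1_level h𝒰 x) (fnZ1_cocycle h𝒰 x))
    (fun _ _ _ => cupCl_add_left h𝒰 hA hC rfl _ _ _ _ _ _ _ _)
    (fun r _ _ => cupCl_smul_left h𝒰 hA hC r rfl _ _ _ _ _ _)
    (fun _ _ _ => cupCl_add_right h𝒰 hA hC rfl _ _ _ _ _ _ _ _)
    (fun r _ _ => cupCl_smul_right h𝒰 hA hC r rfl _ _ _ _ _ _)

lemma cupZZ_apply (f : (lvl h𝒰 (Representation.linHom ρA ρC) (isDiscrete_hom h𝒰 hA hC)).Z1)
    (x : (lvl h𝒰 ρA hA).Z1) :
    cupZZ h𝒰 hA hC f x = cupCl h𝒰 hA hC (fnZ1 h𝒰 f) (fnZ1 h𝒰 x) (fnZ1_level h𝒰 f)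
      (fnZ1_cocycle h𝒰 f) (fnZ1_level h𝒰 x) (fnZ1_cocycle h𝒰 x) := rfl

lemma cupZZ_bdry_left
    (f : (lvl h𝒰 (Representation.linHom ρA ρC) (isDiscrete_hom h𝒰 hA hC)).Z1)
    (hf : f ∈ (lvl h𝒰 (Representation.linHom ρA ρC) (isDiscrete_hom h𝒰 hA hC)).B1) :
    cupZZ h𝒰 hA hC f = 0 := by
  obtain ⟨φ, hφ⟩ := ((lvl h𝒰 _ _).mem_B1_iff f).1 hf
  ext x
  rw [cupZZ_apply, LinearMap.zero_apply]
  unfold cupCl
  rw [cl2_eq_zero_iff]
  have h1 : fnZ1 h𝒰 f = dZero (Representation.linHom ρA ρC) φ := by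
    rw [fnZ1, ← hφ]; rfl
  refine ⟨fun a => φ (fnZ1 h𝒰 x a), (fnZ1_level h𝒰 x).comp φ, ?_⟩
  rw [h1, cupFun_dZero_left ρA ρC φ (fnZ1_cocycle h𝒰 x)]

lemma cupZZ_bdry_right
    (f : (lvl h𝒰 (Representation.linHom ρA ρC) (isDiscrete_hom h𝒰 hA hC)).Z1)
    (x : (lvl h𝒰 ρA hA).Z1) (hx : x ∈ (lvl h𝒰 ρA hA).B1) :
    cupZZ h𝒰 hA hC f x = 0 := by
  obtain ⟨a, ha⟩ := ((lvl h𝒰 ρA hA).mem_B1_iff x).1 hx
  rw [cupZZ_apply]
  unfold cupCl
  rw [cl2_eq_zero_iff]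
  have h1 : fnZ1 h𝒰 x = dZero ρA a := by
    rw [fnZ1, ← ha]; rfl
  refine ⟨- fun g => fnZ1 h𝒰 f g (ρA g a), ?_, ?_⟩
  · have := isLevel₁_cup10 h𝒰 hA (fun (y : A →ₗ[k] C) p => y p) (fnZ1_level h𝒰 f) a
    exact this.comp (fun c => -c)
  · rw [h1, cupFun_dZero_right ρA ρC (fnZ1_cocycle h𝒰 f) a, map_neg]

/-- **The cup product** `H¹(G; Hom(A, C)) × H¹(G; A) → H²(G; C)` on level cohomology. -/
noncomputable def cup :
    Hlev1 h𝒰 (Representation.linHom ρA ρC) (isDiscrete_hom h𝒰 hA hC) →ₗ[k]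
      Hlev1 h𝒰 ρA hA →ₗ[k] Hlev2 h𝒰 ρC hC :=
  liftH1H1 (lvl h𝒰 (Representation.linHom ρA ρC) (isDiscrete_hom h𝒰 hA hC)) (lvl h𝒰 ρA hA)
    (cupZZ h𝒰 hA hC) (cupZZ_bdry_left h𝒰 hA hC) (cupZZ_bdry_right h𝒰 hA hC)

/-- The cup product of the classes of two raw cocycles. -/
theorem cup_cl1 (f : G → (A →ₗ[k] C)) (x : G → A) (hfl : IsLevel₁ 𝒰 f)
    (hf : dOne (Representation.linHom ρA ρC) f = 0) (hxl : IsLevel₁ 𝒰 x) (hx : dOne ρA x = 0) :
    cup h𝒰 hA hC (cl1 h𝒰 _ (isDiscrete_hom h𝒰 hA hC) f hfl hf) (cl1 h𝒰 ρA hA x hxl hx) =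
      cupCl h𝒰 hA hC f x hfl hf hxl hx := rfl

end Classes

/-! ### Functoriality in the module and graded commutativity -/

section Symm

variable {k G : Type*} [CommRing k] [Group G] {𝒰 : Set (Subgroup G)}
variable {A C : Type*} [AddCommGroup A] [Module k A] [AddCommGroup C] [Module k C]
variable (ρA : Representation k G A) (ρC : Representation k G C)

/-- The evaluation map `A → Hom(Hom(A, C), C)`. -/
def evalMap : A →ₗ[k] ((A →ₗ[k] C) →ₗ[k] C) := LinearMap.applyₗ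

@[simp] lemma evalMap_apply (a : A) (φ : A →ₗ[k] C) : evalMap (k := k) (C := C) a φ = φ a := rfl

/-- The evaluation map is equivariant. -/
lemma evalMap_comm (g : G) (a : A) :
    evalMap (k := k) (C := C) (ρA g a) =
      Representation.linHom (Representation.linHom ρA ρC) ρC g (evalMap a) := by
  ext φ
  rw [evalMap_apply, Representation.linHom_apply]
  simp only [LinearMap.comp_apply, evalMap_apply, Representation.linHom_apply,
    Representation.self_inv_apply, inv_inv]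

variable {ρA ρC}

/-- `ev ∘ x` is a cocycle when `x` is. -/
lemma dOne_evalMap_comp {x : G → A} (hx : dOne ρA x = 0) :
    dOne (Representation.linHom (Representation.linHom ρA ρC) ρC)
      (fun g => evalMap (k := k) (C := C) (x g)) = 0 := by
  have h := comp_dOne ρA (Representation.linHom (Representation.linHom ρA ρC) ρC)
    (evalMap (k := k) (C := C)) (fun g a => evalMap_comm ρA ρC g a) x
  have e : (⇑(evalMap (k := k) (C := C)) ∘ x) = fun g => evalMap (k := k) (C := C) (x g) := rfl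
  rw [← e, ← h, hx]
  funext q
  simp

/-- `(ev ∘ x) ∪ f = x ∪' f` on raw cochains. -/
lemma cupFun_evalMap (x : G → A) (f : G → (A →ₗ[k] C)) :
    cupFun (Representation.linHom ρA ρC) (fun g => evalMap (k := k) (C := C) (x g)) f =
      cupFun' ρA ρC x f := by
  funext ⟨g, h⟩
  rw [cupFun_apply, evalMap_apply, cupFun'_apply, Representation.linHom_apply]
  rfl

variable [Module.Finite k A]
variable (h𝒰 : IsLevelBasis 𝒰) (hA : IsDiscrete 𝒰 ρA) (hC : IsDiscrete 𝒰 ρC)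

/-- **Graded commutativity**: `(ev ∘ x) ∪ f = - (f ∪ x)` in `H²(G; C)`. -/
theorem cupCl_evalMap (f : G → (A →ₗ[k] C)) (x : G → A) (hfl : IsLevel₁ 𝒰 f)
    (hf : dOne (Representation.linHom ρA ρC) f = 0) (hxl : IsLevel₁ 𝒰 x) (hx : dOne ρA x = 0) :
    cupCl h𝒰 (isDiscrete_hom h𝒰 hA hC) hC (fun g => evalMap (k := k) (C := C) (x g)) f
        (hxl.comp _) (dOne_evalMap_comp hx) hfl hf =
      - cupCl h𝒰 hA hC f x hfl hf hxl hx := by
  rw [eq_neg_iff_add_eq_zero]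
  unfold cupCl
  have hl1 : IsLevel₂ 𝒰 (cupFun (Representation.linHom ρA ρC)
      (fun g => evalMap (k := k) (C := C) (x g)) f) :=
    isLevel₂_cupFun h𝒰 (isDiscrete_hom h𝒰 hA hC) (hxl.comp _) hfl
  have hc1 := dTwo_cupFun (Representation.linHom ρA ρC) ρC (dOne_evalMap_comp hx) hf
  have hl2 := isLevel₂_cupFun h𝒰 hA hfl hxl
  have hc2 := dTwo_cupFun ρA ρC hf hx
  rw [← cl2_add hl1 hc1 hl2 hc2 (h𝒰.isLevel₂_add hl1 hl2)
    (by rw [map_add, hc1, hc2, add_zero])]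
  rw [cl2_eq_zero_iff]
  refine ⟨- fun g => f g (x g), ?_, ?_⟩
  · obtain ⟨U, hU, hfU⟩ := hfl
    obtain ⟨V, hV, hxV⟩ := hxl
    obtain ⟨W, hW, hle⟩ := h𝒰.inf U hU V hV
    refine ⟨W, hW, fun g s hs => ?_⟩
    simp only [Pi.neg_apply]
    rw [hfU g s (hle hs).1, hxV g s (hle hs).2]
  · rw [map_neg, cupFun_evalMap, cupFun'_add_cupFun ρA ρC hf hx]

end Symm

end Fermat.Agent.TW.LocalDuality.Cup22
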