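/-
Program TW (S56, Taylor–Wiles primes), chapter LocalDuality (WP2/WP3 glue), helper22.

`PairingsField22`: the field `pairings` of `Status52b.OpenContracts2` (= of `Glue52b.DeliverablesB`)
for `M = ad⁰ ρbar`, from the sum formula for the local invariants (`Reciprocity22.SumFormula`, the
conclusion of WP3's `exists_lam`):

* `pairings_of_isSmoothUnramified` : for a general `M` with `Contract52.IsSmoothUnramified p S M`;
* `pairings_field` : the literal field, given `∀ S' ∋ p, ∃ lam, (∀ q, lam q ≠ 0) ∧ SumFormula p S' lam`.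
-/
import Mathlib
import Fermat.Agent.TW.LocalDuality.Reciprocity22
import Fermat.Agent.TW.Cocycle.SmoothEnd95

set_option autoImplicit false

namespace Fermat.Agent.TW.LocalDuality.PairingsField22

open ExtCitation groupCohomology
open Fermat.Agent.TW.Spec.Defs52 Fermat.Agent.TW.Spec.Contract52
open Fermat.Agent.TW.LocalDuality.Reciprocity22

variable (p : ℕ) [Fact p.Prime]

/-- WP2 + WP3 for a general module satisfying the hypotheses of S55. -/
theorem pairings_of_isSmoothUnramified (S : Finset Nat.Primes) (hpS : pPrime p ∈ S)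
    (M : Rep.{0} (ZMod p) GQ) (hM : IsSmoothUnramified p S M)
    (h : ∃ lam : ↥S → ZMod p, (∀ q, lam q ≠ 0) ∧ SumFormula p S lam) :
    ∃ pa : PrimePairings p M, Reciprocity p S M (assemblePairings p S M pa) ∧
      ∀ q : Nat.Primes, RightNondegAt p M pa q :=
  haveI := hM.finite
  exists_pairings p S hpS M hM.smooth hM.unramified h

variable {k : Type} [Field k] [Finite k] [Algebra (ZMod p) k] (ρbar : ResidualGaloisRep k)

/-- **The field `pairings` of `Status52b.OpenContracts2`**, from the sum formula. -/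
theorem pairings_field (Smin : Finset ℕ)
    (hlam : ∀ S' : Finset Nat.Primes, pPrime p ∈ S' →
      ∃ lam : ↥S' → ZMod p, (∀ q, lam q ≠ 0) ∧ SumFormula p S' lam) :
    ∀ S' : Finset Nat.Primes, pPrime p ∈ S' →
      (∀ q : Nat.Primes, q ∉ S' → ρbar.IsUnramifiedAt q) →
        ∃ pa : PrimePairings p (ad0 p ρbar),
          Reciprocity p S' (ad0 p ρbar) (assemblePairings p S' (ad0 p ρbar) pa) ∧
          ∀ q ∈ S', (q : ℕ) ∉ Smin → p ∣ (q : ℕ) - 1 →
            DistinctFrobEigenvalues ρbar (q : ℕ) → RightNondegAt p (ad0 p ρbar) pa q := by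
  intro S' hpS' hur
  haveI : Module.Finite (ZMod p) k := Module.Finite.of_finite
  obtain ⟨pa, hrec, hnd⟩ := pairings_of_isSmoothUnramified p S' hpS' (ad0 p ρbar)
    (Fermat.Agent.TW.Cocycle.SmoothEnd95.isSmoothUnramified_ad0 p ρbar S' hur) (hlam S' hpS')
  exact ⟨pa, hrec, fun q _ _ _ _ => hnd q⟩

end Fermat.Agent.TW.LocalDuality.PairingsField22
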