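/-
Program TW (S56, Taylor–Wiles primes), chapter LocalDuality (WP3 backup), helper22.

`SumFormulaTor22`: the maps of `SumFormulaPrep22` on `p`-torsion, as (semireducible) additive maps
`dEt, tCt, pqt q, jqt q, rqt q`, with the facts used by the sum formula:
`tCt_dEt` (`t_* ∘ diag_* = 0`), `rqt_pqt_dEt`
(`res_{ev_q} ∘ (proj_q)_* ∘ diag_* = res_{loc_q}` = `Reciprocity22.resTor`), `rqt_injective` ((S2)),
`tCt_jqt_injective` ((LG)).
-/
import Mathlib
import Fermat.Agent.TW.LocalDuality.SumFormulaPrep22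

set_option autoImplicit false
set_option linter.unusedSectionVars false

namespace Fermat.Agent.TW.LocalDuality.SumFormulaTor22

open Function ExtCitation
open Fermat.Agent.PT.PRO Fermat.Agent.PT.PRO.HyperLevel25 Fermat.Agent.PT.PRO.Resolved4
open Fermat.Agent.PT.PRO.HyperRes25 Fermat.Agent.PT.PRO.ExtPairing4
open Fermat.Agent.PT.PRO.PairingRes1 Fermat.Agent.PT.PRO.InvP4 Fermat.Agent.PT.PRO.LevelEquiv29
open Fermat.Agent.PT.GLUE.Objects21 Fermat.Agent.PT.GLUE.LocS2_29 Fermat.Agent.PT.GLUE.LevelTheta21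
open Fermat.Agent.PT.PRO.ProdDict10 Fermat.Agent.PT.GLUE.LocalHypR11
open Fermat.Agent.TW.LocalDuality.LocalPairing22 Fermat.Agent.TW.LocalDuality.Reciprocity22
open Fermat.Agent.TW.LocalDuality.SumFormulaPrep22

variable (p : ℕ) [Fact p.Prime] (S : Finset Nat.Primes)

/-! ### The maps on `p`-torsion -/

/-- `H²(E_S)[p] → H²(I_S)[p]`. -/
noncomputable def dEt :
    pTor p (Hlev2 (basis (levelS S)) (ES S).ρ (isDiscrete_ES S)) →+
      pTor p (Hlev2 (basis (levelS S)) (IS S).ρ (isDiscrete_IS' S)) :=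
  torMap p (dE S).toAddMonoidHom

/-- `H²(I_S)[p] → H²(C_S)[p]`. -/
noncomputable def tCt :
    pTor p (Hlev2 (basis (levelS S)) (IS S).ρ (isDiscrete_IS' S)) →+
      pTor p (Hlev2 (basis (levelS S)) (CS S).ρ (isDiscrete_CS S)) :=
  torMap p (tC S).toAddMonoidHom

/-- `H²(I_S)[p] → H²(I_{S,q})[p]`. -/
noncomputable def pqt (q : ↥S) :
    pTor p (Hlev2 (basis (levelS S)) (IS S).ρ (isDiscrete_IS' S)) →+
      pTor p (Hlev2 (basis (levelS S)) (ISq S ((q : Nat.Primes) : ℕ)).ρ (isDiscrete_ISq' S q)) :=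
  torMap p (pq S q).toAddMonoidHom

/-- `H²(I_{S,q})[p] → H²(I_S)[p]`. -/
noncomputable def jqt [DecidableEq ↥S] (q : ↥S) :
    pTor p (Hlev2 (basis (levelS S)) (ISq S ((q : Nat.Primes) : ℕ)).ρ (isDiscrete_ISq' S q)) →+
      pTor p (Hlev2 (basis (levelS S)) (IS S).ρ (isDiscrete_IS' S)) :=
  torMap p (jq S q).toAddMonoidHom

/-- Shapiro's restriction `H²(I_{S,q})[p] → H²(Γ_q; ℚ̄_qˣ)[p]`. -/
noncomputable def rqt (q : ↥S) :
    pTor p (Hlev2 (basis (levelS S)) (ISq S ((q : Nat.Primes) : ℕ)).ρ (isDiscrete_ISq' S q)) →+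
      pTor p (Hlev2 (isLevelBasis_levelLoc ((q : Nat.Primes) : ℕ))
        (unitsLoc ((q : Nat.Primes) : ℕ)).ρ (isDiscrete_unitsLoc' ((q : Nat.Primes) : ℕ))) :=
  torMap p (rq S q).toAddMonoidHom

theorem tCt_dEt (W : pTor p (Hlev2 (basis (levelS S)) (ES S).ρ (isDiscrete_ES S))) :
    tCt p S (dEt p S W) = 0 :=
  Subtype.ext (show tC S (dE S W.1) = 0 from tC_dE S W.1)

theorem rqt_pqt_dEt (q : ↥S)
    (W : pTor p (Hlev2 (basis (levelS S)) (ES S).ρ (isDiscrete_ES S))) :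
    rqt p S q (pqt p S q (dEt p S W)) = resTor p S ((q : Nat.Primes) : ℕ) W :=
  Subtype.ext (show rq S q (pq S q (dE S W.1)) = _ from rq_pq_dE S q W.1)

theorem rqt_injective (q : ↥S) : Injective (rqt p S q) :=
  torMap_injective p _
    (fun _ _ h => resH2_injective S ((q : Nat.Primes) : ℕ) (h.trans (map_zero _).symm))

theorem tCt_jqt_injective [DecidableEq ↥S]
    (hLG : ∀ (q : ↥S)
      (w : Hlev2 (basis (levelS S)) (ISq S ((q : Nat.Primes) : ℕ)).ρ (isDiscrete_ISq' S q)),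
      p • w = 0 → tC S (jq S q w) = 0 → w = 0) (q : ↥S) :
    Injective ((tCt p S).comp (jqt p S q)) := by
  rw [injective_iff_map_eq_zero]
  intro w hw
  exact Subtype.ext (hLG q w.1 w.2 (congrArg Subtype.val hw))

end Fermat.Agent.TW.LocalDuality.SumFormulaTor22
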