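/-
Program TW (S56, Taylor–Wiles primes), chapter LocalDuality (WP3, declared backup), helper22.

`SumFormula22`: **the sum formula for the local invariants** — the global input of the reciprocity
law for the local Tate pairings:

  `theorem exists_lam (hp2 : p ≠ 2) (hpS : pPrime p ∈ S) :
      ∃ lam : ↥S → ZMod p, (∀ q, lam q ≠ 0) ∧ Reciprocity22.SumFormula p S lam`

i.e. there are units `lam q ∈ 𝔽_pˣ` (`q ∈ S`) with `∑_{q ∈ S} lam q * τ_q (res_q W) = 0` for every
`W ∈ H²_lev(G_S; E_S)` killed by `p` (`τ_q = LocalPairing22.tauLoc q p`).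

Proof (`exists_lam_abstract`): `τ : H²(G_S; C_S)[p] ↪ ℤ/p` (fundamental classes of the `S`-idele class
formation: `InvFund18.exists_inv_of_isFundClass` + `FundLevel2.fundFixed_CS`); on
`H²(G_S; I_{S,q})[p]` the maps `τ ∘ (t ∘ incl_q)_*` ((LG): `LocalGlobalInst27.hLG_inclq`) and
`τ_q ∘ res_{ev_q}` ((S2): `LocS2_29.resH2_injective`) are injective into `ℤ/p`, so they differ by a
unit `lam q`; and `0 = τ (t_* diag_* W) = ∑_q τ (t_* incl_q* proj_q* diag_* W)
= ∑_q lam q * τ_q (res_{ev_q} proj_q* diag_* W) = ∑_q lam q * τ_q (res_q W)`.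
-/
import Mathlib
import Fermat.Agent.TW.LocalDuality.SumFormulaTor22
import Fermat.Agent.PT.PRO.InvFund18
import Fermat.Agent.PT.GLUE.LocalGlobalInst27
import Fermat.Agent.PT.GLUE.FundLevel2
import Fermat.Agent.PT.GLOB.FundClassExists6
import Fermat.Agent.PT.GLOB.LocalInjMain14

set_option autoImplicit false
set_option linter.unusedSectionVars false

namespace Fermat.Agent.TW.LocalDuality.SumFormula22

open Function ExtCitation
open Fermat.Agent.PT.PRO Fermat.Agent.PT.PRO.HyperLevel25 Fermat.Agent.PT.PRO.Resolved4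
open Fermat.Agent.PT.PRO.InvP4 Fermat.Agent.PT.PRO.LevelEquiv29
open Fermat.Agent.PT.GLUE.Objects21 Fermat.Agent.PT.GLUE.LocS2_29 Fermat.Agent.PT.GLUE.LevelTheta21
open Fermat.Agent.PT.PRO.ProdDict10 Fermat.Agent.PT.GLUE.LocalHypR11
open Fermat.Agent.TW.LocalDuality.LocalPairing22 Fermat.Agent.TW.LocalDuality.Reciprocity22
open Fermat.Agent.TW.LocalDuality.SumFormulaPrep22 Fermat.Agent.TW.LocalDuality.SumFormulaTor22

/-! ### The sum formula, abstractly -/

section Abstract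

variable {p : ℕ} [Fact p.Prime]
variable {E I C : Type*} [AddCommGroup E] [AddCommGroup I] [AddCommGroup C]
  {ι : Type*} [Fintype ι] {Iq Wq : ι → Type*} [∀ q, AddCommGroup (Iq q)]
  [∀ q, AddCommGroup (Wq q)]

/-- **The abstract sum formula**: `E → I → C` with zero composite, `I = ⊕ I_q`, an injective
invariant `τ` on `C` and injective invariants `τ_q ∘ r_q` on `I_q` such that `τ ∘ t ∘ j_q` is
injective: then `τ ∘ t ∘ j_q = lam_q • (τ_q ∘ r_q)` with `lam_q ≠ 0` and
`∑_q lam_q τ_q (r_q (pr_q (d W))) = 0`. -/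
theorem exists_lam_abstract (d : E →+ I) (t : I →+ C) (pr : ∀ q, I →+ Iq q) (j : ∀ q, Iq q →+ I)
    (r : ∀ q, Iq q →+ Wq q) (τ : C →+ ZMod p) (τq : ∀ q, Wq q →+ ZMod p)
    (htd : ∀ W, t (d W) = 0) (hdec : ∀ z, z = ∑ q, j q (pr q z))
    (hτ : Injective τ) (htj : ∀ q, Injective (t.comp (j q)))
    (hτq : ∀ q, Injective (τq q)) (hr : ∀ q, Injective (r q)) :
    ∃ lam : ι → ZMod p, (∀ q, lam q ≠ 0) ∧
      ∀ W : E, ∑ q, lam q * τq q (r q (pr q (d W))) = 0 := by
  choose lam hlam0 hlam using fun q : ι =>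
    exists_scalar (τ.comp (t.comp (j q))) ((τq q).comp (r q)) (hτ.comp (htj q))
      ((hτq q).comp (hr q))
  refine ⟨lam, hlam0, fun W => ?_⟩
  have h1 : τ (t (d W)) = 0 := by rw [htd, map_zero]
  rw [hdec (d W), map_sum, map_sum] at h1
  rw [← h1]
  exact Finset.sum_congr rfl fun q _ => (hlam q (pr q (d W))).symm

end Abstract

variable (p : ℕ) [Fact p.Prime] (S : Finset Nat.Primes)

/-- The bundled form of the sum formula, from an injective invariant `τ` on `H²(G_S; C_S)[p]`,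
(LG) and (S2). -/
theorem exists_lam_of_inv [DecidableEq ↥S]
    (τ : pTor p (Hlev2 (basis (levelS S)) (CS S).ρ (isDiscrete_CS S)) →+ ZMod p)
    (hτ : Injective τ)
    (hLG : ∀ (q : ↥S)
      (w : Hlev2 (basis (levelS S)) (ISq S ((q : Nat.Primes) : ℕ)).ρ (isDiscrete_ISq' S q)),
      p • w = 0 → tC S (jq S q w) = 0 → w = 0) :
    ∃ lam : ↥S → ZMod p, (∀ q, lam q ≠ 0) ∧
      ∀ W : pTor p (Hlev2 (basis (levelS S)) (ES S).ρ (isDiscrete_ES S)),
        ∑ q : ↥S, lam q * tauLoc ((q : Nat.Primes) : ℕ) p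
          (resTor p S ((q : Nat.Primes) : ℕ) W) = 0 := by
  have key : ∃ lam : ↥S → ZMod p, (∀ q, lam q ≠ 0) ∧
      ∀ W : pTor p (Hlev2 (basis (levelS S)) (ES S).ρ (isDiscrete_ES S)),
        ∑ q : ↥S, lam q * tauLoc ((q : Nat.Primes) : ℕ) p
          (rqt p S q (pqt p S q (dEt p S W))) = 0 := by
    refine exists_lam_abstract (dEt p S) (tCt p S) (pqt p S) (jqt p S)
      (rqt p S) τ (fun q : ↥S => tauLoc ((q : Nat.Primes) : ℕ) p) ?_ ?_ ?_ ?_ ?_ ?_
    · exact tCt_dEt p S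
    · intro z
      apply Subtype.ext
      rw [AddSubgroup.val_finsetSum]
      exact sum_jq_pq S z.1
    · exact hτ
    · exact tCt_jqt_injective p S hLG
    · exact fun q : ↥S => tauLoc_injective ((q : Nat.Primes) : ℕ) p
    · exact rqt_injective p S
  obtain ⟨lam, hlam0, hlam⟩ := key
  refine ⟨lam, hlam0, fun W => ?_⟩
  refine Eq.trans (Finset.sum_congr rfl fun q _ => ?_) (hlam W)
  exact congrArg (fun w => lam q * tauLoc ((q : Nat.Primes) : ℕ) p w) (rqt_pqt_dEt p S q W).symm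

/-- **The sum formula for the local invariants `tauLoc`** (global class field theory for `ℚ_S`:
`FundLevel2.fundFixed_CS`, `LocalGlobalInst27.hLG_inclq`, `LocS2_29.resH2_injective`). -/
theorem exists_lam (hp2 : p ≠ 2) (hpS : pPrime p ∈ S) :
    ∃ lam : ↥S → ZMod p, (∀ q, lam q ≠ 0) ∧ SumFormula p S lam := by
  classical
  obtain ⟨τ, hτ⟩ := InvFund18.exists_inv_of_isFundClass (CS S).ρ (basis (levelS S))
    (isDiscrete_CS S)
    (Fermat.Agent.PT.GLUE.FundLevel2.fundFixed_CS p hp2 hpS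
      (Fermat.Agent.PT.GLOB.FundClassExists6.fundClassExists p S))
  have hLG := Fermat.Agent.PT.GLUE.LocalGlobalInst27.hLG_inclq S p Fact.out hp2
    ⟨pPrime p, hpS, rfl⟩ (Fermat.Agent.PT.GLOB.LocalInjMain14.localInjectivity p S)
    (basis (levelS S)) (isDiscrete_ISq' S) (isDiscrete_IS' S) (isDiscrete_CS S)
  obtain ⟨lam, hlam0, hlam⟩ := exists_lam_of_inv p S τ hτ hLG
  exact ⟨lam, hlam0, fun W hW => hlam ⟨W, hW⟩⟩

end Fermat.Agent.TW.LocalDuality.SumFormula22
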