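/-
Program TW (S56, Taylor–Wiles primes), chapter LocalDuality (WP2 + WP3), helper22.

`PairingsFinal22`: **CONTRACT `pairings` CLOSED.**

* `exists_pairings_final` : for `p` odd, `S ∋ p` and a finite-dimensional smooth `𝔽_p[G_ℚ]`-module `M`
  unramified outside `S`, there are local pairings `pa : Contract52.PrimePairings p M` satisfying
  the reciprocity law `Contract52.Reciprocity p S M (assemblePairings p S M pa)` and right
  non-degenerate on continuous classes at EVERY prime;
* `pairings` : the literal field `pairings` of `Status52b.OpenContracts2` / `Status52c.OpenContracts3`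
  / `Glue52b.DeliverablesB` for `M = ad⁰ ρbar`.
-/
import Mathlib
import Fermat.Agent.TW.LocalDuality.PairingsField22
import Fermat.Agent.TW.LocalDuality.SumFormula22

set_option autoImplicit false

namespace Fermat.Agent.TW.LocalDuality.PairingsFinal22

open ExtCitation groupCohomology
open Fermat.Agent.TW.Spec.Defs52 Fermat.Agent.TW.Spec.Contract52
open Fermat.Agent.TW.LocalDuality.Reciprocity22 Fermat.Agent.TW.LocalDuality.SumFormula22
open Fermat.Agent.TW.LocalDuality.PairingsField22

variable (p : ℕ) [Fact p.Prime]

/-- **WP2 + WP3**: local Tate pairings with reciprocity and right non-degeneracy. -/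
theorem exists_pairings_final (hp2 : p ≠ 2) (S : Finset Nat.Primes) (hpS : pPrime p ∈ S)
    (M : Rep.{0} (ZMod p) GQ) (hM : IsSmoothUnramified p S M) :
    ∃ pa : PrimePairings p M, Reciprocity p S M (assemblePairings p S M pa) ∧
      ∀ q : Nat.Primes, RightNondegAt p M pa q :=
  pairings_of_isSmoothUnramified p S hpS M hM (exists_lam p S hp2 hpS)

variable {k : Type} [Field k] [Finite k] [Algebra (ZMod p) k] (ρbar : ResidualGaloisRep k)

/-- **The field `pairings`** of `Status52b.OpenContracts2` (= of `Glue52b.DeliverablesB`). -/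
theorem pairings (hp2 : p ≠ 2) (Smin : Finset ℕ) :
    ∀ S' : Finset Nat.Primes, pPrime p ∈ S' →
      (∀ q : Nat.Primes, q ∉ S' → ρbar.IsUnramifiedAt q) →
        ∃ pa : PrimePairings p (ad0 p ρbar),
          Reciprocity p S' (ad0 p ρbar) (assemblePairings p S' (ad0 p ρbar) pa) ∧
          ∀ q ∈ S', (q : ℕ) ∉ Smin → p ∣ (q : ℕ) - 1 →
            DistinctFrobEigenvalues ρbar (q : ℕ) → RightNondegAt p (ad0 p ρbar) pa q :=
  pairings_field p ρbar Smin (fun S' hpS' => exists_lam p S' hp2 hpS')

end Fermat.Agent.TW.LocalDuality.PairingsFinal22
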