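/-
Program TW (S56), WP3 (reciprocity), pure algebra (helper55): two injective additive maps from the
same abelian group to `ZMod p` differ by a nonzero scalar.  (The group then has order `1` or `p`.)
-/
import Mathlib

set_option autoImplicit false

namespace Fermat.Agent.TW.LocalDuality.ScalarOfInj55

variable {p : ℕ} [hp : Fact p.Prime] {D : Type*} [AddCommGroup D]

/-- If `g : D →+ ZMod p` is injective, every additive `f : D →+ ZMod p` is a scalar multiple of `g`. -/
theorem exists_scalar_of_injective (f g : D →+ ZMod p) (hg : Function.Injective g) :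
    ∃ lam : ZMod p, ∀ x, f x = lam * g x := by
  by_cases hD : ∃ x₀ : D, x₀ ≠ 0
  · obtain ⟨x₀, hx₀⟩ := hD
    have hg0 : g x₀ ≠ 0 := fun h => hx₀ (hg (h.trans (map_zero g).symm))
    refine ⟨f x₀ / g x₀, fun x => ?_⟩
    set c : ZMod p := g x / g x₀ with hc
    have hcx : g x = c * g x₀ := by rw [hc, div_mul_cancel₀ _ hg0]
    have hx : x = c.val • x₀ := by
      apply hg
      rw [map_nsmul, nsmul_eq_mul, ZMod.natCast_zmod_val, hcx]
    have hfx : f x = c * f x₀ := by
      conv_lhs => rw [hx]
      rw [map_nsmul, nsmul_eq_mul, ZMod.natCast_zmod_val]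
    rw [hfx, hcx]
    field_simp
  · simp only [not_exists, not_not] at hD
    exact ⟨1, fun x => by rw [hD x, map_zero, map_zero, mul_zero]⟩

/-- Two injective additive maps `D →+ ZMod p` differ by a NONZERO scalar. -/
theorem exists_ne_zero_scalar_of_injective (f g : D →+ ZMod p) (hf : Function.Injective f)
    (hg : Function.Injective g) : ∃ lam : ZMod p, lam ≠ 0 ∧ ∀ x, f x = lam * g x := by
  obtain ⟨lam, hlam⟩ := exists_scalar_of_injective f g hg
  by_cases h0 : lam = 0
  · refine ⟨1, one_ne_zero, fun x => ?_⟩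
    have hx : x = 0 := by
      apply hf
      rw [hlam x, h0, zero_mul, map_zero]
    rw [hx, map_zero, map_zero, mul_zero]
  · exact ⟨lam, h0, hlam⟩

/-- Composite form: `f = τ ∘ φ` with `τ`, `g` injective and `φ` injective. -/
theorem exists_ne_zero_scalar_comp {E : Type*} [AddCommGroup E] (φ : D →+ E) (hφ : Function.Injective φ)
    (τ : E →+ ZMod p) (hτ : Function.Injective τ) (g : D →+ ZMod p) (hg : Function.Injective g) :
    ∃ lam : ZMod p, lam ≠ 0 ∧ ∀ x, τ (φ x) = lam * g x :=
  exists_ne_zero_scalar_of_injective (τ.comp φ) g (hτ.comp hφ) hg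

end Fermat.Agent.TW.LocalDuality.ScalarOfInj55
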