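/-
Program TW (S56, Taylor–Wiles primes), chapter LocalDuality (WP3 backup), helper22.

`SumFormulaPrep22`: the ingredients of the sum formula for the local invariants
(`Reciprocity22.SumFormula`):

* `exists_scalar` : two injective additive maps `D →+ ℤ/p` differ by a nonzero scalar;
* `torMap p f`    : the map induced by `f` on `p`-torsion (`torMap_injective`);
* `resH2_mapH2`, `resH2_congr` : functoriality of `PairingRes1.resH2`;
* at the S55 objects (`E_S → I_S → C_S`, `I_S = ∏ I_{S,q}`, `ev_q : I_{S,q} → ℚ̄_qˣ`):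
  `tC_dE` (the composite `H²(E_S) → H²(I_S) → H²(C_S)` is zero), `sum_jq_pq`
  (`z = ∑_q (incl_q)_* (proj_q)_* z` in `H²(I_S)`), `rq_pq_dE`
  (`res_{ev_q} (proj_q)_* diag_* W = res_{loc_q} W`).
-/
import Mathlib
import Fermat.Agent.TW.LocalDuality.Reciprocity22
import Fermat.Agent.TW.Recip.Reciprocity94
import Fermat.Agent.PT.PRO.InvFund18
import Fermat.Agent.PT.PRO.ProdDict10
import Fermat.Agent.PT.GLUE.LocS2_29
import Fermat.Agent.PT.GLUE.LocalGlobalInst27
import Fermat.Agent.PT.GLUE.FundLevel2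
import Fermat.Agent.PT.GLOB.FundClassExists6
import Fermat.Agent.PT.GLOB.LocalInjMain14

set_option autoImplicit false
set_option linter.unusedSectionVars false

namespace Fermat.Agent.TW.LocalDuality.SumFormulaPrep22

open Function ExtCitation
open Fermat.Agent.PT.PRO Fermat.Agent.PT.PRO.HyperLevel25 Fermat.Agent.PT.PRO.Resolved4
open Fermat.Agent.PT.PRO.HyperRes25 Fermat.Agent.PT.PRO.ExtPairing4
open Fermat.Agent.PT.PRO.PairingRes1 Fermat.Agent.PT.PRO.InvP4 Fermat.Agent.PT.PRO.LevelEquiv29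

/-! ### Generic functoriality: `resH2 ∘ mapH2` -/

section Functoriality

open Fermat.Agent.TW.Recip.CupLevel94

variable {k G G' : Type*} [CommRing k] [Group G] [Group G']
  {𝒰 : Set (Subgroup G)} {𝒰' : Set (Subgroup G')}
variable {X Y W : Type*} [AddCommGroup X] [Module k X] [AddCommGroup Y] [Module k Y]
  [AddCommGroup W] [Module k W]
variable {ρX : Representation k G X} {ρY : Representation k G Y} {ρW : Representation k G' W}
variable (h𝒰 : IsLevelBasis 𝒰) (h𝒰' : IsLevelBasis 𝒰') (f : G' →* G) (hf : IsLevelHom f 𝒰' 𝒰)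
  (hX : IsDiscrete 𝒰 ρX) (hY : IsDiscrete 𝒰 ρY) (hW : IsDiscrete 𝒰' ρW)
  (φ : X →ₗ[k] Y) (hφ : ∀ g x, φ (ρX g x) = ρY g (φ x))
  (ε : Y →ₗ[k] W) (hε : ∀ g y, ε (ρY (f g) y) = ρW g (ε y))

include hφ hε in
theorem comp_over (g : G') (x : X) : (ε.comp φ) (ρX (f g) x) = ρW g ((ε.comp φ) x) := by
  rw [LinearMap.comp_apply, hφ, hε, LinearMap.comp_apply]

/-- `res_ε ∘ φ_* = res_{ε ∘ φ}`. -/
theorem resH2_mapH2 (w : Hlev2 h𝒰 ρX hX) :
    resH2 hf h𝒰 h𝒰' hY hW ε hε ((lvlHom h𝒰 hX hY φ hφ).mapH2 w) =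
      resH2 hf h𝒰 h𝒰' hX hW (ε.comp φ) (comp_over f φ hφ ε hε) w := by
  obtain ⟨c, hl, hc, rfl⟩ := cl2_surjective w
  rw [mapH2_cl2, resH2_cl2, resH2_cl2]
  rfl

/-- `resH2` only depends on the underlying coefficient map. -/
theorem resH2_congr {ε ε' : X →ₗ[k] W} (h : ε = ε')
    (hε : ∀ g x, ε (ρX (f g) x) = ρW g (ε x)) (hε' : ∀ g x, ε' (ρX (f g) x) = ρW g (ε' x))
    (w : Hlev2 h𝒰 ρX hX) :
    resH2 hf h𝒰 h𝒰' hX hW ε hε w = resH2 hf h𝒰 h𝒰' hX hW ε' hε' w := by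
  subst h
  rfl

end Functoriality

/-! ## Pure algebra -/

section Algebra

variable {p : ℕ} [Fact p.Prime]

/-- Two injective additive maps into `ℤ/p` differ by a nonzero scalar. -/
theorem exists_scalar {D : Type*} [AddCommGroup D] (f g : D →+ ZMod p) (hf : Injective f)
    (hg : Injective g) : ∃ lam : ZMod p, lam ≠ 0 ∧ ∀ x, f x = lam * g x := by
  by_cases hz : ∀ x : D, x = 0
  · exact ⟨1, one_ne_zero, fun x => by rw [hz x, map_zero, map_zero, mul_zero]⟩
  · push Not at hz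
    obtain ⟨x₀, hx₀⟩ := hz
    have hg0 : g x₀ ≠ 0 := fun h => hx₀ (hg (by rw [h, map_zero]))
    have hf0 : f x₀ ≠ 0 := fun h => hx₀ (hf (by rw [h, map_zero]))
    refine ⟨f x₀ / g x₀, div_ne_zero hf0 hg0, fun x => ?_⟩
    have hx : x = (g x / g x₀).val • x₀ := by
      apply hg
      rw [map_nsmul, nsmul_eq_mul, ZMod.natCast_val, ZMod.cast_id', id, div_mul_cancel₀ _ hg0]
    have h1 : f x = (g x / g x₀) * f x₀ := by
      conv_lhs => rw [hx]
      rw [map_nsmul, nsmul_eq_mul, ZMod.natCast_val, ZMod.cast_id', id]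
    rw [h1]
    field_simp

variable (p)

/-- The map induced on `p`-torsion. -/
def torMap {A B : Type*} [AddCommGroup A] [AddCommGroup B] (f : A →+ B) : pTor p A →+ pTor p B :=
  (f.comp (pTor p A).subtype).codRestrict (pTor p B) (fun x => by
    show p • f x.1 = 0
    rw [← map_nsmul, (x.2 : p • x.1 = 0), map_zero])

@[simp] theorem coe_torMap {A B : Type*} [AddCommGroup A] [AddCommGroup B] (f : A →+ B)
    (x : pTor p A) : ((torMap p f x : pTor p B) : B) = f x := rfl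

theorem torMap_injective {A B : Type*} [AddCommGroup A] [AddCommGroup B] (f : A →+ B)
    (hf : ∀ x : A, p • x = 0 → f x = 0 → x = 0) : Injective (torMap p f) := by
  rw [injective_iff_map_eq_zero]
  intro x hx
  apply Subtype.ext
  exact hf x.1 x.2 (congrArg Subtype.val hx)

end Algebra


/-! ### The sum formula at the S55 objects -/

section Main

open Fermat.Agent.PT.GLUE.Objects21 Fermat.Agent.PT.GLUE.LocS2_29 Fermat.Agent.PT.GLUE.LevelTheta21
open Fermat.Agent.PT.PRO.ProdDict10 Fermat.Agent.PT.GLUE.LocalHypR11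
open Fermat.Agent.TW.Recip.Reciprocity94
open Fermat.Agent.TW.LocalDuality.LocalPairing22 Fermat.Agent.TW.LocalDuality.Reciprocity22

variable (p : ℕ) [Fact p.Prime] (S : Finset Nat.Primes)

/-- `E_S → I_S` on `H²`. -/
noncomputable abbrev dE :
    Hlev2 (basis (levelS S)) (ES S).ρ (isDiscrete_ES S) →ₗ[ℤ]
      Hlev2 (basis (levelS S)) (IS S).ρ (isDiscrete_IS' S) :=
  (lvlHom (basis (levelS S)) (isDiscrete_ES S) (isDiscrete_IS' S) (diag S) (diag_ρ S)).mapH2

/-- `I_S → C_S` on `H²`. -/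
noncomputable abbrev tC :
    Hlev2 (basis (levelS S)) (IS S).ρ (isDiscrete_IS' S) →ₗ[ℤ]
      Hlev2 (basis (levelS S)) (CS S).ρ (isDiscrete_CS S) :=
  (lvlHom (basis (levelS S)) (isDiscrete_IS' S) (isDiscrete_CS S) (toCS S) (toCS_ρ S)).mapH2

/-- `I_S → I_{S,q}` on `H²`. -/
noncomputable abbrev pq (q : ↥S) :
    Hlev2 (basis (levelS S)) (IS S).ρ (isDiscrete_IS' S) →ₗ[ℤ]
      Hlev2 (basis (levelS S)) (ISq S ((q : Nat.Primes) : ℕ)).ρ (isDiscrete_ISq' S q) :=
  (lvlHom (basis (levelS S)) (isDiscrete_IS' S) (isDiscrete_ISq' S q) (ISproj S q)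
    (ISproj_ρ S q)).mapH2

/-- `I_{S,q} → I_S` on `H²`. -/
noncomputable abbrev jq [DecidableEq ↥S] (q : ↥S) :
    Hlev2 (basis (levelS S)) (ISq S ((q : Nat.Primes) : ℕ)).ρ (isDiscrete_ISq' S q) →ₗ[ℤ]
      Hlev2 (basis (levelS S)) (IS S).ρ (isDiscrete_IS' S) :=
  (lvlHom (basis (levelS S)) (isDiscrete_ISq' S q) (isDiscrete_IS' S) (inclq S q)
    (inclq_ρ S q)).mapH2

/-- Shapiro's restriction `H²(G_S; I_{S,q}) → H²(Γ_q; ℚ̄_qˣ)`. -/
noncomputable abbrev rq (q : ↥S) :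
    Hlev2 (basis (levelS S)) (ISq S ((q : Nat.Primes) : ℕ)).ρ (isDiscrete_ISq' S q) →ₗ[ℤ]
      Hlev2 (isLevelBasis_levelLoc ((q : Nat.Primes) : ℕ)) (unitsLoc ((q : Nat.Primes) : ℕ)).ρ
        (isDiscrete_unitsLoc' ((q : Nat.Primes) : ℕ)) :=
  resH2 (isLevelHom_loc S ((q : Nat.Primes) : ℕ)) (basis (levelS S))
    (isLevelBasis_levelLoc ((q : Nat.Primes) : ℕ)) (isDiscrete_ISq' S q)
    (isDiscrete_unitsLoc' ((q : Nat.Primes) : ℕ)) (evq S ((q : Nat.Primes) : ℕ))
    (evq_ρ S ((q : Nat.Primes) : ℕ))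

/-- (F1) `H²(E_S) → H²(I_S) → H²(C_S)` is zero. -/
theorem tC_dE (W : Hlev2 (basis (levelS S)) (ES S).ρ (isDiscrete_ES S)) : tC S (dE S W) = 0 :=
  (mapH2_comp (basis (levelS S)) (isDiscrete_ES S) (isDiscrete_IS' S) (isDiscrete_CS S) (diag S)
    (diag_ρ S) (toCS S) (toCS_ρ S) W).trans
    (mapH2_eq_zero_of_eq_zero (basis (levelS S)) (isDiscrete_ES S) (isDiscrete_CS S) _ _
      (fun x => (toCS_eq_zero_iff S (diag S x)).2 ⟨x, rfl⟩) W)

/-- `id_{I_S} = ∑_q incl_q ∘ proj_q`. -/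
theorem sum_inclq_ISproj [DecidableEq ↥S] (x : IS S) : ∑ q, inclq S q (ISproj S q x) = x := by
  apply (ISequiv S).injective
  rw [map_sum]
  funext r
  rw [Finset.sum_apply]
  simp only [ISequiv_inclq, ISproj_apply]
  rw [Finset.sum_eq_single r (fun b _ hb => Pi.single_eq_of_ne hb.symm _)
    (fun h => absurd (Finset.mem_univ r) h), Pi.single_eq_same]

/-- (F2) decomposition of classes in `H²(I_S)`. -/
theorem sum_jq_pq [DecidableEq ↥S] (z : Hlev2 (basis (levelS S)) (IS S).ρ (isDiscrete_IS' S)) :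
    z = ∑ q, jq S q (pq S q z) := by
  have e1 : (LinearMap.id : IS S →ₗ[ℤ] IS S) = ∑ q, (inclq S q).comp (ISproj S q) :=
    LinearMap.ext fun x => (sum_inclq_ISproj S x).symm.trans
      (LinearMap.sum_apply Finset.univ (fun q => (inclq S q).comp (ISproj S q)) x).symm
  calc z = (lvlHom (basis (levelS S)) (isDiscrete_IS' S) (isDiscrete_IS' S) LinearMap.id
          (fun _ _ => rfl)).mapH2 z := (mapH2_id _ _ _ z).symm
    _ = (lvlHom (basis (levelS S)) (isDiscrete_IS' S) (isDiscrete_IS' S)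
          (∑ q, (inclq S q).comp (ISproj S q))
          (sum_equivariant Finset.univ (fun q => (inclq S q).comp (ISproj S q))
            (fun q => comp_equivariant (ISproj S q) (ISproj_ρ S q) (inclq S q)
              (inclq_ρ S q)))).mapH2 z := mapH2_congr _ _ _ e1 _ _ z
    _ = ∑ q, (lvlHom (basis (levelS S)) (isDiscrete_IS' S) (isDiscrete_IS' S)
          ((inclq S q).comp (ISproj S q))
          (comp_equivariant (ISproj S q) (ISproj_ρ S q) (inclq S q) (inclq_ρ S q))).mapH2 z :=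
        mapH2_sum _ _ _ Finset.univ (fun q => (inclq S q).comp (ISproj S q)) _ z
    _ = _ := Finset.sum_congr rfl fun q _ =>
        (mapH2_comp _ _ _ _ (ISproj S q) (ISproj_ρ S q) (inclq S q) (inclq_ρ S q) z).symm

/-- `ev_q ∘ proj_q ∘ diag = loc_q` on `E_S`. -/
theorem evq_ISproj_diag (q : ↥S) (b : ES S) :
    evq S ((q : Nat.Primes) : ℕ) (ISproj S q (diag S b)) = locE S ((q : Nat.Primes) : ℕ) b := by
  rw [ISproj_diag]
  exact Fermat.Agent.PT.GLUE.SmCoind21.ev_lift _ _ _ (isDiscrete_ES S)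
    (locE S ((q : Nat.Primes) : ℕ)) (locE_ρ S ((q : Nat.Primes) : ℕ)) _

/-- (F3) Shapiro's restriction of the `q`-component of the image of `W ∈ H²(E_S)` in `H²(I_S)` is
the restriction of `W` to `Γ_q`. -/
theorem rq_pq_dE (q : ↥S) (W : Hlev2 (basis (levelS S)) (ES S).ρ (isDiscrete_ES S)) :
    rq S q (pq S q (dE S W)) =
      resH2 (isLevelHom_loc S ((q : Nat.Primes) : ℕ)) (basis (levelS S))
        (isLevelBasis_levelLoc ((q : Nat.Primes) : ℕ)) (isDiscrete_ES S)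
        (isDiscrete_unitsLoc' ((q : Nat.Primes) : ℕ)) (locE S ((q : Nat.Primes) : ℕ))
        (locE_ρ S ((q : Nat.Primes) : ℕ)) W := by
  refine (congrArg (rq S q) (mapH2_comp (basis (levelS S)) (isDiscrete_ES S) (isDiscrete_IS' S)
    (isDiscrete_ISq' S q) (diag S) (diag_ρ S) (ISproj S q) (ISproj_ρ S q) W)).trans ?_
  refine (resH2_mapH2 (basis (levelS S)) (isLevelBasis_levelLoc ((q : Nat.Primes) : ℕ))
    (localGaloisToGlobal ((q : Nat.Primes) : ℕ)) (isLevelHom_loc S ((q : Nat.Primes) : ℕ))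
    (isDiscrete_ES S) (isDiscrete_ISq' S q) (isDiscrete_unitsLoc' ((q : Nat.Primes) : ℕ))
    ((ISproj S q).comp (diag S)) _ (evq S ((q : Nat.Primes) : ℕ))
    (evq_ρ S ((q : Nat.Primes) : ℕ)) W).trans ?_
  exact resH2_congr (basis (levelS S)) (isLevelBasis_levelLoc ((q : Nat.Primes) : ℕ))
    (localGaloisToGlobal ((q : Nat.Primes) : ℕ)) (isLevelHom_loc S ((q : Nat.Primes) : ℕ))
    (isDiscrete_ES S) (isDiscrete_unitsLoc' ((q : Nat.Primes) : ℕ))
    (LinearMap.ext fun b => evq_ISproj_diag S q b) _ _ W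

end Main

end Fermat.Agent.TW.LocalDuality.SumFormulaPrep22
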